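import Fermat.Agent.S55.LocalImage

/-!
# PROGRAM G (S56), local blocks: `G_{ℚ_q} → D(padicPlace q)` is surjective

`S55/LocalImage` proves the finite-level surjectivity (`exists_localGaloisToGlobal_eq_on`); since the
local Galois group is compact for the Krull topology and the conditions
`{τ | localGaloisToGlobal q τ x = σ x}` are closed, a compactness argument gives an honest preimage.
-/

set_option autoImplicit false

open scoped NNReal

namespace Fermat.Agent.TW.Loc

open Fermat.Agent.S55

local notation "Qb" => AlgebraicClosure ℚ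
local notation "GQ" => (AlgebraicClosure ℚ ≃ₐ[ℚ] AlgebraicClosure ℚ)

variable (q : ℕ) [hq : Fact q.Prime]

local notation "Gq" => (PadicAlgCl q ≃ₐ[ℚ_[q]] PadicAlgCl q)

/-- The condition `localGaloisToGlobal q τ x = σ x` is closed in `τ`. -/
theorem isClosed_setOf_localGaloisToGlobal_eq (σ : GQ) (x : Qb) :
    IsClosed {τ : Gq | localGaloisToGlobal q τ x = σ x} := by
  have hiff : ∀ τ : Gq, localGaloisToGlobal q τ x = σ x ↔
      τ (padicEmbedding q x) = padicEmbedding q (σ x) := by
    intro τ
    rw [← padicEmbedding_localGaloisToGlobal]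
    exact ⟨fun h => by rw [h], fun h => (padicEmbedding q).toRingHom.injective h⟩
  rw [← isOpen_compl_iff, isOpen_iff_forall_mem_open]
  intro τ hτ
  have hτ' : τ (padicEmbedding q x) ≠ padicEmbedding q (σ x) := fun h => hτ ((hiff τ).mpr h)
  have : Algebra.IsIntegral ℚ_[q] (PadicAlgCl q) := Algebra.IsAlgebraic.isIntegral
  have hopen := stabilizer_isOpen_of_isIntegral (K := ℚ_[q]) (L := PadicAlgCl q)
    (padicEmbedding q x)
  refine ⟨(fun g => τ * g) '' (MulAction.stabilizer Gq (padicEmbedding q x) : Set Gq), ?_,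
    (Homeomorph.mulLeft τ).isOpenMap _ hopen, ⟨1, one_mem _, mul_one τ⟩⟩
  rintro _ ⟨g, hg, rfl⟩
  intro hmem
  apply hτ'
  have h1 : (τ * g) (padicEmbedding q x) = padicEmbedding q (σ x) := (hiff _).mp hmem
  have h2 : g (padicEmbedding q x) = padicEmbedding q x := hg
  rw [AlgEquiv.mul_apply, h2] at h1
  exact h1

/-- **Surjectivity of `G_{ℚ_q} → D(padicPlace q)`.** -/
theorem exists_localGaloisToGlobal_eq {σ : GQ}
    (hσ : σ ∈ (padicPlace q).decompositionSubgroup ℚ) :
    ∃ τ : Gq, localGaloisToGlobal q τ = σ := by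
  classical
  let t : Finset Qb → Set Gq := fun s => {τ | ∀ x ∈ s, localGaloisToGlobal q τ x = σ x}
  have hdir : Directed (· ⊇ ·) t := by
    intro s s'
    refine ⟨s ∪ s', fun τ hτ x hx => hτ x (Finset.mem_union_left _ hx),
      fun τ hτ x hx => hτ x (Finset.mem_union_right _ hx)⟩
  have hne : ∀ s, (t s).Nonempty := by
    intro s
    let E : IntermediateField ℚ Qb := IntermediateField.adjoin ℚ (s : Set Qb)
    have halg : Algebra.IsAlgebraic ℚ Qb := AlgebraicClosure.isAlgebraic ℚ
    have : FiniteDimensional ℚ E :=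
      IntermediateField.finiteDimensional_adjoin fun x _ =>
        (Algebra.IsAlgebraic.isAlgebraic (R := ℚ) x).isIntegral
    obtain ⟨τ, hτ⟩ := exists_localGaloisToGlobal_eq_on q hσ E
    exact ⟨τ, fun x hx => hτ x (IntermediateField.subset_adjoin ℚ _ hx)⟩
  have hcl : ∀ s, IsClosed (t s) := by
    intro s
    have : t s = ⋂ x ∈ s, {τ : Gq | localGaloisToGlobal q τ x = σ x} := by
      ext τ
      simp [t]
    rw [this]
    exact isClosed_biInter fun x _ => isClosed_setOf_localGaloisToGlobal_eq q σ x
  obtain ⟨τ, hτ⟩ := IsCompact.nonempty_iInter_of_directed_nonempty_isCompact_isClosed t hdir hne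
    (fun s => (hcl s).isCompact) hcl
  refine ⟨τ, AlgEquiv.ext fun x => ?_⟩
  exact Set.mem_iInter.mp hτ {x} x (Finset.mem_singleton_self x)

/-- The range of `G_{ℚ_q} → G_ℚ` is the decomposition group of `padicPlace q`. -/
theorem range_localGaloisToGlobal :
    (localGaloisToGlobal q).range = (padicPlace q).decompositionSubgroup ℚ := by
  ext σ
  constructor
  · rintro ⟨τ, rfl⟩
    exact localGaloisToGlobal_mem_decompositionSubgroup q τ
  · intro hσ
    exact exists_localGaloisToGlobal_eq q hσ

end Fermat.Agent.TW.Loc
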