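import Fermat.Agent.TW.Loc.TameGenLocal
import Fermat.Agent.TW.Bridge.FrobInertia

/-!
# PROGRAM G (S56), local blocks: `FrobGenAt` holds at every place over a prime

The hypothesis `FrobGenAt P q` of `TameGenLocal`, `LocS`, `LocQ` is discharged from helper9's
BRIDGE-DP theorem `TW.Bridge.FrobInertia.exists_frob_pow_mul_inertia_mul_fixing`.
-/

set_option autoImplicit false
set_option linter.style.haveILetI false

namespace Fermat.Agent.TW.Loc

local notation "Qb" => AlgebraicClosure ℚ
local notation "GQ" => (AlgebraicClosure ℚ ≃ₐ[ℚ] AlgebraicClosure ℚ)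

/-- **Frobenius generation** at every valuation subring of `ℚ̄` over a prime `q`. -/
theorem frobGenAt_of_liesOverPrime {P : ValuationSubring Qb} {q : ℕ} (hq : q.Prime)
    (hP : P.LiesOverPrime q) : FrobGenAt P q := by
  intro φ hφ F hFfd hstab σ hσ
  haveI := hFfd
  haveI : Normal ℚ F := by
    haveI : IsAlgClosure ℚ Qb := AlgebraicClosure.instIsAlgClosure ℚ
    haveI : Normal ℚ Qb := IsAlgClosure.normal ℚ Qb
    have h : @Normal ℚ F _ _ (IntermediateField.algebra' F) := by
      rw [IntermediateField.normal_iff_forall_map_le']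
      rintro g _ ⟨x, hx, rfl⟩
      exact hstab g x hx
    exact h
  exact Fermat.Agent.TW.Bridge.FrobInertia.exists_frob_pow_mul_inertia_mul_fixing hq hP hφ F hσ

/-- `FrobGenAt` at the standard place `padicPlace q`. -/
theorem frobGenAt_padicPlace (q : ℕ) [hq : Fact q.Prime] : FrobGenAt (padicPlace q) q :=
  frobGenAt_of_liesOverPrime hq.out (Fermat.Agent.S55.padicPlace_liesOverPrime q)

end Fermat.Agent.TW.Loc
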