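import Fermat.Agent.BR3.TameStructGQ

/-!
# PROGRAM G (S56), local blocks at `q ≠ p`: the tame character at a finite level, clean form

`P` a valuation subring of `ℚ̄` over the prime `q`, `I_P` its inertia group, `L/ℚ` finite normal.
`exists_tameChar_data`: a character `θ : I_P →* κ_Pˣ` (the tame character of a uniformizer of `L`
at `P`) and `τ ∈ I_P` with
* `θ(I_P) = ⟨θ τ⟩`,
* every `w ∈ ker θ` has a `q`-power acting trivially on `L`,
* `θ (φ s φ⁻¹) = θ s ^ q` for every Frobenius element `φ` at `P`.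
(Repackaging of `BR2/TameChar`, `BR2/TameDisc`, `BR3/TameStructGQ`.)
-/

set_option autoImplicit false
set_option linter.unusedSectionVars false
set_option linter.style.haveILetI false

namespace Fermat.Agent.TW.Loc

open Fermat.Agent.BR2.TameCore Fermat.Agent.BR2.TameChar Fermat.Agent.BR3.TameStructGQ IsLocalRing

local notation "Qb" => AlgebraicClosure ℚ
local notation "GQ" => (AlgebraicClosure ℚ ≃ₐ[ℚ] AlgebraicClosure ℚ)

theorem exists_tameChar_data {P : ValuationSubring Qb} {q : ℕ} (hq : q.Prime)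
    (hP : P.LiesOverPrime q) (L : IntermediateField ℚ Qb) [hLn : Normal ℚ L]
    [hLf : FiniteDimensional ℚ L] :
    ∃ (θ : ↥(P.inertiaSubgroupIn ℚ) →* (ResidueField P)ˣ) (τ : ↥(P.inertiaSubgroupIn ℚ)),
      (∀ s : ↥(P.inertiaSubgroupIn ℚ), ∃ m : ℕ, θ τ ^ m = θ s) ∧
      (∀ w : ↥(P.inertiaSubgroupIn ℚ), θ w = 1 →
        ∃ a : ℕ, ∀ x ∈ L, ((w : GQ) ^ (q ^ a)) x = x) ∧
      (∀ (φ : GQ) (_ : P.IsFrobeniusAt φ q) (s : ↥(P.inertiaSubgroupIn ℚ)),
        ∃ h : φ * (s : GQ) * φ⁻¹ ∈ P.inertiaSubgroupIn ℚ, θ ⟨φ * (s : GQ) * φ⁻¹, h⟩ = θ s ^ q) := by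
  classical
  haveI := Fermat.Agent.BR2.TameRho.isAlgebraic_Qbar
  haveI := Fermat.Agent.BR2.TameRho.normal_Qbar
  haveI hLn' : @Normal ℚ L _ _ L.algebra' := hLn
  haveI hLf' : @FiniteDimensional ℚ L _ _ L.module' := hLf
  haveI : Fact q.Prime := ⟨hq⟩
  haveI : CharP (ResidueField P) q := Fermat.Agent.Val.charP_residueField_of_liesOverPrime P hP
  obtain ⟨π, hd⟩ := Fermat.Agent.BR2.TameDisc.exists_discreteOn P hq hP L
  have hπ0 : π ≠ 0 := hd.2.1
  have hπL : π ∈ L := hd.1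
  set θ : ↥(P.inertiaSubgroupIn ℚ) →* (ResidueField P)ˣ := tameChar P π hπ0 with hθ
  -- `θ` only depends on the value at `π`
  have hθ_congr : ∀ g h : ↥(P.inertiaSubgroupIn ℚ), (g : GQ) π = (h : GQ) π → θ g = θ h := by
    intro g h e
    apply Units.ext
    rw [hθ, coe_tameChar, coe_tameChar]
    congr 1
    apply Subtype.ext
    show (g : GQ) π / π = (h : GQ) π / π
    rw [e]
  -- restriction to `L`
  let r : GQ →* (L ≃ₐ[ℚ] L) := AlgEquiv.restrictNormalHom L
  have hr_apply : ∀ (g : GQ) (a : Qb) (ha : a ∈ L), ((r g ⟨a, ha⟩ : L) : Qb) = g a := by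
    intro g a ha
    exact AlgEquiv.restrictNormal_commutes g L ⟨a, ha⟩
  have hr : ∀ g h : GQ, r g = r h → ∀ a ∈ L, g a = h a := by
    intro g h e a ha
    rw [← hr_apply g a ha, ← hr_apply h a ha, e]
  -- the image of `θ` is finite, hence cyclic
  have hfin : Finite ↥θ.range := by
    let f : ↥θ.range → (L ≃ₐ[ℚ] L) := fun y => r ((Classical.choose y.2 :
      ↥(P.inertiaSubgroupIn ℚ)) : GQ)
    refine Finite.of_injective f ?_
    intro y y' hyy'
    have h1 := Classical.choose_spec y.2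
    have h2 := Classical.choose_spec y'.2
    apply Subtype.ext
    rw [← h1, ← h2]
    exact hθ_congr _ _ (hr _ _ hyy' π hπL)
  haveI : IsCyclic ↥θ.range := inferInstance
  obtain ⟨⟨y₀, hy₀⟩, hgen⟩ := IsCyclic.exists_generator (α := ↥θ.range)
  obtain ⟨τ₀, hτ₀⟩ := hy₀
  refine ⟨θ, τ₀, ?_, ?_, ?_⟩
  · intro s
    have h1 := hgen ⟨θ s, ⟨s, rfl⟩⟩
    rw [← mem_powers_iff_mem_zpowers] at h1
    obtain ⟨k, hk⟩ := h1
    refine ⟨k, ?_⟩
    have h2 := congrArg (fun z : ↥θ.range => (z : (ResidueField P)ˣ)) hk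
    simp only [SubmonoidClass.coe_pow] at h2
    rw [hτ₀]
    exact h2
  · intro w hw
    exact exists_pow_apply_eq_of_tameChar_eq_one P hq hP L hd w.2 hw
  · intro φ hφ s
    exact ⟨conj_mem_inertia hφ.mem_decompositionSubgroup s.2, tameChar_conj_frob P π hπ0 hφ s⟩

end Fermat.Agent.TW.Loc
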