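import Fermat.Agent.TW.Loc.TameCocycle
import Fermat.Agent.TW.Loc.TameLevel
import Fermat.Agent.TW.Loc.LocalSurj
import Fermat.Agent.Cheb.FrobDict

/-!
# PROGRAM G (S56), local blocks at `q`: the tame presentation of `G_{ℚ_q}` modulo a level

`Gq = Gal(ℚ̄_q/ℚ_q)`, `r = localGaloisToGlobal q : Gq →* G_ℚ`, `P = padicPlace q`,
`F/ℚ` finite normal, `N = r⁻¹(Gal(ℚ̄/F))`.

* `FrobGenAt P q` : the arithmetic input (BRIDGE-DP): `D_P = ⟨φ⟩ · I_P · (Gal(ℚ̄/F) ∩ D_P)` for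
  every Frobenius `φ` at `P` and every finite normal `F`;
* `exists_tameGen` : under `FrobGenAt (padicPlace q) q`, a `TameGen Gq N q` whose inertia group is
  `r⁻¹(I_P)` and whose Frobenius maps to a Frobenius element at `P`.
-/

set_option autoImplicit false
set_option linter.unusedSectionVars false
set_option linter.style.haveILetI false

namespace Fermat.Agent.TW.Loc

open Fermat.Agent.BR2.TameChar IsLocalRing

local notation "Qb" => AlgebraicClosure ℚ
local notation "GQ" => (AlgebraicClosure ℚ ≃ₐ[ℚ] AlgebraicClosure ℚ)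

/-- **Frobenius generation** (BRIDGE-DP): modulo the inertia group and any finite normal level, the
decomposition group is generated by a Frobenius element. -/
def FrobGenAt (P : ValuationSubring Qb) (q : ℕ) : Prop :=
  ∀ φ : GQ, P.IsFrobeniusAt φ q → ∀ F : IntermediateField ℚ Qb, FiniteDimensional ℚ F →
    (∀ (g : GQ), ∀ x ∈ F, g x ∈ F) → ∀ σ ∈ P.decompositionSubgroup ℚ,
      ∃ (n : ℕ) (i u : GQ), i ∈ P.inertiaSubgroupIn ℚ ∧ u ∈ F.fixingSubgroup ∧ σ = φ ^ n * i * u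

variable (q : ℕ) [hq : Fact q.Prime]

local notation "Gq" => (PadicAlgCl q ≃ₐ[ℚ_[q]] PadicAlgCl q)

/-- The inertia subgroup of the local Galois group (preimage of the inertia group of
`padicPlace q`). -/
noncomputable def localInertia : Subgroup Gq :=
  ((padicPlace q).inertiaSubgroupIn ℚ).comap (localGaloisToGlobal q)

/-- The level of the local Galois group attached to a subextension `F` of `ℚ̄/ℚ`. -/
noncomputable def localLevel (F : IntermediateField ℚ Qb) : Subgroup Gq :=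
  F.fixingSubgroup.comap (localGaloisToGlobal q)

theorem mem_localLevel_iff (F : IntermediateField ℚ Qb) (g : Gq) :
    g ∈ localLevel q F ↔ ∀ x ∈ F, localGaloisToGlobal q g x = x := by
  rw [localLevel, Subgroup.mem_comap, IntermediateField.mem_fixingSubgroup_iff]

/-- **The tame presentation of `G_{ℚ_q}` modulo the level of a finite normal `F`.** -/
theorem exists_tameGen (hFG : FrobGenAt (padicPlace q) q) (F : IntermediateField ℚ Qb)
    [hFn : Normal ℚ F] [hFf : FiniteDimensional ℚ F] :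
    ∃ T : TameGen Gq (localLevel q F) q, T.I = localInertia q ∧
      (padicPlace q).IsFrobeniusAt (localGaloisToGlobal q T.φ) q ∧
      ∀ w ∈ T.W, w ∈ localInertia q := by
  classical
  haveI := Fermat.Agent.BR2.TameRho.isAlgebraic_Qbar
  set P := padicPlace q with hPdef
  set r := localGaloisToGlobal q with hr
  have hP : P.LiesOverPrime q := Fermat.Agent.S55.padicPlace_liesOverPrime q
  have hstab : ∀ (g : GQ), ∀ x ∈ F, g x ∈ F := by
    intro g x hx
    have := AlgEquiv.restrictNormal_commutes g F ⟨x, hx⟩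
    rw [show algebraMap F Qb ⟨x, hx⟩ = x from rfl] at this
    rw [← this]
    exact (g.restrictNormal F ⟨x, hx⟩).2
  obtain ⟨θ, τ₀, hgen, hwild, hconj⟩ := exists_tameChar_data hq.out hP F
  obtain ⟨φ₀, hφ₀⟩ := Fermat.Agent.Cheb.exists_isFrobeniusAt_of_liesOverPrime hq.out hP
  have hID : ∀ g : GQ, g ∈ P.inertiaSubgroupIn ℚ → g ∈ P.decompositionSubgroup ℚ :=
    fun g hg => ((mem_inertia_iff P g).mp hg).1
  obtain ⟨τ, hτ⟩ := exists_localGaloisToGlobal_eq q (hID _ τ₀.2)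
  obtain ⟨φ, hφ⟩ := exists_localGaloisToGlobal_eq q hφ₀.mem_decompositionSubgroup
  have hτI : τ ∈ localInertia q := by
    show r τ ∈ P.inertiaSubgroupIn ℚ
    rw [hτ]
    exact τ₀.2
  refine ⟨{ I := localInertia q
            W := {w | ∃ h : r w ∈ P.inertiaSubgroupIn ℚ, θ ⟨r w, h⟩ = 1}
            φ := φ
            τ := τ
            τ_mem := hτI
            gen := ?_
            genI := ?_
            wild := ?_
            rel := ?_ }, rfl, ?_, ?_⟩
  · -- gen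
    intro g
    obtain ⟨n, i, u, hi, hu, hg⟩ := hFG φ₀ hφ₀ F hFf hstab (r g)
      (localGaloisToGlobal_mem_decompositionSubgroup q g)
    obtain ⟨ι, hι⟩ := exists_localGaloisToGlobal_eq q (hID i hi)
    refine ⟨n, ι, (φ ^ n * ι)⁻¹ * g, ?_, ?_, ?_⟩
    · show r ι ∈ P.inertiaSubgroupIn ℚ
      rw [hι]
      exact hi
    · show r ((φ ^ n * ι)⁻¹ * g) ∈ F.fixingSubgroup
      rw [map_mul, map_inv, map_mul, map_pow, hφ, hι, hg]
      have : (φ₀ ^ n * i)⁻¹ * (φ₀ ^ n * i * u) = u := by group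
      rw [this]
      exact hu
    · group
  · -- genI
    intro i hi
    have hi' : r i ∈ P.inertiaSubgroupIn ℚ := hi
    obtain ⟨m, hm⟩ := hgen ⟨r i, hi'⟩
    refine ⟨m, (τ ^ m)⁻¹ * i, 1, ?_, one_mem _, by group⟩
    have hmem : r ((τ ^ m)⁻¹ * i) ∈ P.inertiaSubgroupIn ℚ := by
      rw [map_mul, map_inv, map_pow, hτ]
      exact mul_mem (inv_mem (pow_mem τ₀.2 m)) hi'
    refine ⟨hmem, ?_⟩
    have e : (⟨r ((τ ^ m)⁻¹ * i), hmem⟩ : ↥(P.inertiaSubgroupIn ℚ)) =
        (τ₀ ^ m)⁻¹ * ⟨r i, hi'⟩ := by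
      apply Subtype.ext
      show r ((τ ^ m)⁻¹ * i) = ((τ₀ : GQ) ^ m)⁻¹ * r i
      rw [map_mul, map_inv, map_pow, hτ]
    rw [e, map_mul, map_inv, map_pow, hm, inv_mul_cancel]
  · -- wild
    rintro w ⟨hw, hθw⟩
    obtain ⟨a, ha⟩ := hwild ⟨r w, hw⟩ hθw
    refine ⟨a, ?_⟩
    rw [mem_localLevel_iff]
    intro x hx
    rw [map_pow]
    exact ha x hx
  · -- rel
    have hcI : φ₀ * (τ₀ : GQ) * φ₀⁻¹ ∈ P.inertiaSubgroupIn ℚ :=
      conj_mem_inertia hφ₀.mem_decompositionSubgroup τ₀.2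
    refine ⟨(τ ^ q)⁻¹ * (φ * τ * φ⁻¹), 1, ?_, one_mem _, by group⟩
    have hrw : r ((τ ^ q)⁻¹ * (φ * τ * φ⁻¹)) = ((τ₀ : GQ) ^ q)⁻¹ * (φ₀ * (τ₀ : GQ) * φ₀⁻¹) := by
      rw [map_mul, map_inv, map_pow, map_mul, map_mul, map_inv, hτ, hφ]
    have hmem : r ((τ ^ q)⁻¹ * (φ * τ * φ⁻¹)) ∈ P.inertiaSubgroupIn ℚ := by
      rw [hrw]
      exact mul_mem (inv_mem (pow_mem τ₀.2 q)) hcI
    refine ⟨hmem, ?_⟩
    obtain ⟨h, hθ⟩ := hconj φ₀ hφ₀ τ₀
    have e : (⟨r ((τ ^ q)⁻¹ * (φ * τ * φ⁻¹)), hmem⟩ : ↥(P.inertiaSubgroupIn ℚ)) =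
        (τ₀ ^ q)⁻¹ * ⟨φ₀ * (τ₀ : GQ) * φ₀⁻¹, h⟩ := by
      apply Subtype.ext
      exact hrw
    rw [e, map_mul, map_inv, map_pow, hθ, inv_mul_cancel]
  · -- the Frobenius
    show P.IsFrobeniusAt (r φ) q
    rw [hφ]
    exact hφ₀
  · -- wild elements are in inertia
    rintro w ⟨hw, -⟩
    exact hw

end Fermat.Agent.TW.Loc
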