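import Fermat.Agent.TW.Loc.UnrGeneral
import Fermat.Agent.Res.CycloModP
import Fermat.Agent.S55.CycloUnram

/-!
# PROGRAM G (S56): the local `H¹` of an unramified module and the invariants of its Tate dual

`X : Rep (ZMod p) G_ℚ` finite-dimensional with open kernel, unramified at the prime `q ≠ p`,
`X' = X.dualTwist (cycloChar p)`.

* `invariants_locRep_eq_ker` : for an unramified module `Y` with open kernel,
  `Y^{G_q} = ker (φ - 1)` for every Frobenius element `φ` at `padicPlace q`;
* `finrank_invariants_dualTwist` : `dim (X')^{G_q} = dim ker (φ - q | X)`;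
* `finrank_H1_unr_le_dual` : `dim H¹(G_q, X) ≤ dim X^{G_q} + dim (X')^{G_q}`.
-/

set_option autoImplicit false
set_option linter.unusedSectionVars false
set_option linter.style.haveILetI false

open CategoryTheory groupCohomology Module ExtCitation

namespace Fermat.Agent.TW.Loc

open Fermat.Agent.CFT Fermat.Agent.S55

local notation "Qb" => AlgebraicClosure ℚ
local notation "GQ" => (AlgebraicClosure ℚ ≃ₐ[ℚ] AlgebraicClosure ℚ)

section LinAlg

variable {K V : Type*} [Field K] [AddCommGroup V] [Module K V] [FiniteDimensional K V]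

/-- The eigenspaces of an endomorphism and of its transpose have the same dimension. -/
theorem finrank_ker_dualMap_sub_smul (A : Module.End K V) (c : K) :
    finrank K (LinearMap.ker (A.dualMap - c • (1 : Module.End K (Module.Dual K V)))) =
      finrank K (LinearMap.ker (A - c • (1 : Module.End K V))) := by
  have e : A.dualMap - c • (1 : Module.End K (Module.Dual K V)) =
      (A - c • (1 : Module.End K V)).dualMap := by
    ext f x
    simp [LinearMap.dualMap_apply]
  rw [e]
  have h1 := LinearMap.finrank_range_add_finrank_ker (A - c • (1 : Module.End K V)).dualMap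
  have h2 := LinearMap.finrank_range_add_finrank_ker (A - c • (1 : Module.End K V))
  have h3 := LinearMap.finrank_range_dualMap_eq_finrank_range (A - c • (1 : Module.End K V))
  have h4 : finrank K (Module.Dual K V) = finrank K V := Subspace.dual_finrank_eq
  omega

end LinAlg

section Invariants

variable {k : Type} [Field k] (Y : Rep k GQ) (q : ℕ) [hq : Fact q.Prime]

local notation "Gq" => (PadicAlgCl q ≃ₐ[ℚ_[q]] PadicAlgCl q)

local instance instIsAlgClosureQbUnrD : IsAlgClosure ℚ Qb := AlgebraicClosure.instIsAlgClosure ℚ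
local instance instIsGaloisQbUnrD : IsGalois ℚ Qb :=
  Fermat.Agent.S54.FrobExists.isGalois_rat_algebraicClosure

variable {Y q}

/-- For an unramified module with open kernel, the `G_q`-invariants are the fixed points of any
Frobenius element. -/
theorem invariants_locRep_eq_ker (hopen : ∃ F : IntermediateField ℚ Qb, FiniteDimensional ℚ F ∧
      ∀ s ∈ F.fixingSubgroup, Y.ρ s = 1)
    (hur : ∀ σ ∈ (padicPlace q).inertiaSubgroupIn ℚ, Y.ρ σ = 1) {φ : GQ}
    (hφ : (padicPlace q).IsFrobeniusAt φ q) :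
    (locRep Y q).ρ.invariants = LinearMap.ker (Y.ρ φ - 1) := by
  ext x
  have hx : x ∈ LinearMap.ker (Y.ρ φ - 1) ↔ Y.ρ φ x = x := by
    rw [LinearMap.mem_ker, LinearMap.sub_apply, Module.End.one_apply, sub_eq_zero]
  rw [hx]
  constructor
  · intro h
    obtain ⟨s, hs⟩ := exists_localGaloisToGlobal_eq q hφ.mem_decompositionSubgroup
    have := h s
    rw [← hs]
    exact this
  · intro h g
    -- a normal finite level on which `Y` is trivial
    obtain ⟨F₀, hF₀fd, hF₀⟩ := hopen
    haveI := hF₀fd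
    obtain ⟨E, hF₀E, hEgal, hEfd⟩ := exists_isGalois_ge F₀
    haveI := hEfd
    haveI : Normal ℚ E := hEgal.to_normal
    have hstab : ∀ (g : GQ), ∀ x ∈ E, g x ∈ E := by
      intro g x hx
      have := AlgEquiv.restrictNormal_commutes g E ⟨x, hx⟩
      rw [show algebraMap E Qb ⟨x, hx⟩ = x from rfl] at this
      rw [← this]
      exact (g.restrictNormal E ⟨x, hx⟩).2
    obtain ⟨n, i, u, hi, hu, hgiu⟩ := frobGenAt_padicPlace q φ hφ E hEfd hstab
      (localGaloisToGlobal q g) (localGaloisToGlobal_mem_decompositionSubgroup q g)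
    have hu1 : Y.ρ u = 1 := hF₀ u (IntermediateField.fixingSubgroup_antitone hF₀E hu)
    show Y.ρ (localGaloisToGlobal q g) x = x
    rw [hgiu, map_mul, map_mul, map_pow, hur i hi, hu1, mul_one, mul_one]
    clear hgiu
    induction n with
    | zero => rw [pow_zero, Module.End.one_apply]
    | succ n ih => rw [pow_succ, Module.End.mul_apply, h, ih]

end Invariants

section Dual

variable {p : ℕ} [hp : Fact p.Prime] (X : Rep (ZMod p) GQ) (q : ℕ) [hq : Fact q.Prime]

variable {X q}

/-- The Tate dual of a module with open kernel has open kernel. -/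
theorem exists_open_dualTwist (hopen : ∃ F : IntermediateField ℚ Qb, FiniteDimensional ℚ F ∧
      ∀ s ∈ F.fixingSubgroup, X.ρ s = 1) :
    ∃ F : IntermediateField ℚ Qb, FiniteDimensional ℚ F ∧
      ∀ s ∈ F.fixingSubgroup, (X.dualTwist (cycloChar p)).ρ s = 1 := by
  obtain ⟨F₀, hF₀fd, hF₀⟩ := hopen
  obtain ⟨F₁, hF₁, hχ⟩ := exists_isUnramifiedOutside_cycloChar_eq_one (p := p)
  haveI := hF₀fd
  haveI := hF₁.1
  refine ⟨F₀ ⊔ F₁, inferInstance, fun s hs => ?_⟩
  have h0 : X.ρ s⁻¹ = 1 :=
    hF₀ _ (inv_mem (IntermediateField.fixingSubgroup_antitone le_sup_left hs))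
  have h1 : cycloChar p s = 1 :=
    hχ s (IntermediateField.fixingSubgroup_antitone le_sup_right hs)
  refine LinearMap.ext fun f => ?_
  rw [Rep.dualTwist_ρ_apply, h0, h1, Units.val_one, one_smul]
  rfl

/-- The Tate dual of a module unramified at `q ≠ p` is unramified at `q`. -/
theorem dualTwist_rho_eq_one_of_mem_inertia (hqp : q ≠ p)
    (hur : ∀ σ ∈ (padicPlace q).inertiaSubgroupIn ℚ, X.ρ σ = 1) (σ : GQ)
    (hσ : σ ∈ (padicPlace q).inertiaSubgroupIn ℚ) : (X.dualTwist (cycloChar p)).ρ σ = 1 := by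
  have h0 : X.ρ σ⁻¹ = 1 := hur _ (inv_mem hσ)
  have h1 : cycloChar p σ = 1 :=
    cycloChar_eq_one_of_mem_inertia p hq.out hqp _ (padicPlace_liesOverPrime q) hσ
  refine LinearMap.ext fun f => ?_
  rw [Rep.dualTwist_ρ_apply, h0, h1, Units.val_one, one_smul]
  rfl

/-- **`dim (X^∨(1))^{G_q} = dim ker (φ - q | X)`** for `X` unramified at `q ≠ p`. -/
theorem finrank_invariants_dualTwist [Module.Finite (ZMod p) X] (hqp : q ≠ p)
    (hopen : ∃ F : IntermediateField ℚ Qb, FiniteDimensional ℚ F ∧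
      ∀ s ∈ F.fixingSubgroup, X.ρ s = 1)
    (hur : ∀ σ ∈ (padicPlace q).inertiaSubgroupIn ℚ, X.ρ σ = 1) {φ : GQ}
    (hφ : (padicPlace q).IsFrobeniusAt φ q) :
    finrank (ZMod p) (locRep (X.dualTwist (cycloChar p)) q).ρ.invariants =
      finrank (ZMod p) (LinearMap.ker (X.ρ φ - (q : ZMod p) • (1 : Module.End (ZMod p) X))) := by
  rw [invariants_locRep_eq_ker (exists_open_dualTwist hopen)
    (dualTwist_rho_eq_one_of_mem_inertia hqp hur) hφ]
  have hχ : ((cycloChar p φ : (ZMod p)ˣ) : ZMod p) = (q : ZMod p) :=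
    Fermat.Agent.Res.cycloChar_frobenius p hq.out hqp _ (padicPlace_liesOverPrime q) hφ
  have hinv1 : X.ρ φ⁻¹ * X.ρ φ = 1 := by rw [← map_mul, inv_mul_cancel, map_one]
  have hinv2 : X.ρ φ * X.ρ φ⁻¹ = 1 := by rw [← map_mul, mul_inv_cancel, map_one]
  have hker : (LinearMap.ker ((X.dualTwist (cycloChar p)).ρ φ - 1) :
      Submodule (ZMod p) (Module.Dual (ZMod p) X)) =
      LinearMap.ker ((X.ρ φ).dualMap -
        (q : ZMod p) • (1 : Module.End (ZMod p) (Module.Dual (ZMod p) X))) := by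
    ext f
    have e1 : f ∈ (LinearMap.ker ((X.dualTwist (cycloChar p)).ρ φ - 1) :
        Submodule (ZMod p) (Module.Dual (ZMod p) X)) ↔
        (q : ZMod p) • (f ∘ₗ X.ρ φ⁻¹) = f := by
      rw [LinearMap.mem_ker]
      show (X.dualTwist (cycloChar p)).ρ φ f - f = 0 ↔ _
      rw [sub_eq_zero, Rep.dualTwist_ρ_apply, hχ]
    have e2 : f ∈ LinearMap.ker ((X.ρ φ).dualMap -
        (q : ZMod p) • (1 : Module.End (ZMod p) (Module.Dual (ZMod p) X))) ↔
        f ∘ₗ X.ρ φ = (q : ZMod p) • f := by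
      rw [LinearMap.mem_ker, LinearMap.sub_apply, LinearMap.smul_apply, Module.End.one_apply,
        sub_eq_zero]
      rfl
    rw [e1, e2]
    constructor
    · intro h
      have h' := congrArg (fun g : Module.Dual (ZMod p) X => g ∘ₗ X.ρ φ) h
      simp only [LinearMap.smul_comp, LinearMap.comp_assoc] at h'
      have h'' : X.ρ φ⁻¹ ∘ₗ X.ρ φ = LinearMap.id := hinv1
      rw [h'', LinearMap.comp_id] at h'
      exact h'.symm
    · intro h
      have h'' : X.ρ φ ∘ₗ X.ρ φ⁻¹ = LinearMap.id := hinv2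
      rw [← LinearMap.smul_comp, ← h, LinearMap.comp_assoc, h'', LinearMap.comp_id]
  calc finrank (ZMod p) (LinearMap.ker ((X.dualTwist (cycloChar p)).ρ φ - 1))
      = finrank (ZMod p) (LinearMap.ker ((X.ρ φ).dualMap -
          (q : ZMod p) • (1 : Module.End (ZMod p) (Module.Dual (ZMod p) X)))) :=
        congrArg (fun S : Submodule (ZMod p) (Module.Dual (ZMod p) X) => finrank (ZMod p) S) hker
    _ = _ := finrank_ker_dualMap_sub_smul (X.ρ φ) (q : ZMod p)

/-- **The local `H¹` of an unramified module, Tate-dual form**: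
`dim H¹(G_q, X) ≤ dim X^{G_q} + dim (X^∨(1))^{G_q}` for `q ≠ p`. -/
theorem finrank_H1_unr_le_dual [Module.Finite (ZMod p) X] (hqp : q ≠ p)
    (hopen : ∃ F : IntermediateField ℚ Qb, FiniteDimensional ℚ F ∧
      ∀ s ∈ F.fixingSubgroup, X.ρ s = 1)
    (hur : ∀ σ ∈ (padicPlace q).inertiaSubgroupIn ℚ, X.ρ σ = 1) :
    Module.Finite (ZMod p) (LC.H1 (levelOf (localGaloisToGlobal q)) (locRep X q)) ∧
      finrank (ZMod p) (LC.H1 (levelOf (localGaloisToGlobal q)) (locRep X q)) ≤
        finrank (ZMod p) (locRep X q).ρ.invariants +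
          finrank (ZMod p) (locRep (X.dualTwist (cycloChar p)) q).ρ.invariants := by
  obtain ⟨φ, hφ⟩ := Fermat.Agent.Cheb.exists_isFrobeniusAt_of_liesOverPrime hq.out
    (padicPlace_liesOverPrime q)
  have hqk : ((q : ℕ) : ZMod p) ≠ 0 := by
    intro h0
    rw [ZMod.natCast_eq_zero_iff] at h0
    exact hqp ((Nat.prime_dvd_prime_iff_eq hp.out hq.out).mp h0).symm
  rw [finrank_invariants_dualTwist hqp hopen hur hφ]
  exact finrank_H1_unr_le hqk hopen hur hφ

end Dual

section Prime

variable {p : ℕ} [hp : Fact p.Prime] {T : Finset Nat.Primes}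

/-- **Consumer form** (vocabulary of `S55.lcLocTotal₁`): for `X` smooth for `globalLevel T` and a
prime `v ∉ T`, `v ≠ p`: `h¹_v(X) ≤ h⁰_v(X) + h⁰_v(X^∨(1))`. -/
theorem finrank_H1_prime_unr_le (X : Rep (ZMod p) GQ) [Module.Finite (ZMod p) X]
    (hX : IsSmooth (globalLevel T) X) (v : Nat.Primes) (hvT : v ∉ T) (hvp : (v : ℕ) ≠ p) :
    Module.Finite (ZMod p)
        (LC.H1 (levelOf (primeLocalToGlobal v)) (Rep.res (primeLocalToGlobal v) X)) ∧
      finrank (ZMod p)
        (LC.H1 (levelOf (primeLocalToGlobal v)) (Rep.res (primeLocalToGlobal v) X)) ≤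
        finrank (ZMod p) (Rep.res (primeLocalToGlobal v) X).ρ.invariants +
          finrank (ZMod p)
            (Rep.res (primeLocalToGlobal v) (X.dualTwist (cycloChar p))).ρ.invariants := by
  classical
  letI : Fact (v : ℕ).Prime := ⟨v.2⟩
  -- a level on which `X` is trivial
  let b := Module.finBasis (ZMod p) X
  obtain ⟨_, ⟨F, -, hF, rfl⟩, hfix⟩ := hX.exists_level_of_finite (Set.finite_range b)
  have hρ : ∀ s ∈ F.fixingSubgroup, X.ρ s = 1 := by
    intro s hs
    refine b.ext fun i => ?_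
    rw [Module.End.one_apply]
    exact hfix (b i) ⟨i, rfl⟩ s hs
  have hopen : ∃ F : IntermediateField ℚ Qb, FiniteDimensional ℚ F ∧
      ∀ s ∈ F.fixingSubgroup, X.ρ s = 1 := ⟨F, hF.1, hρ⟩
  have hur : ∀ σ ∈ (padicPlace (v : ℕ)).inertiaSubgroupIn ℚ, X.ρ σ = 1 := fun σ hσ =>
    hρ σ (hF.2 v hvT _ (padicPlace_liesOverPrime (v : ℕ)) hσ)
  exact finrank_H1_unr_le_dual (X := X) (q := (v : ℕ)) hvp hopen hur

end Prime

end Fermat.Agent.TW.Loc
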