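import Fermat.Agent.TW.Loc.Main
import Fermat.Agent.TW.LocalSpan
import Fermat.Agent.TW.Sel.LocalForms

/-!
# PROGRAM G (S56), blocks (LOC-S) and (LOC-q) in the shared vocabulary `TW.LocalSpan`

* `locBound_unip` : **(LOC-S)** `LocBound ρbar 𝒟 T v 0` if every deformation of type `𝒟` to `k[ε]` is
  unipotent on inertia at `v`, `ρbar` is ramified at `v` and `2 v ≠ 0` in `k`;
* `locBound_aux` : **(LOC-q)** `LocBound ρbar 𝒟 T v 1` at a Taylor–Wiles prime `v`.
-/

set_option autoImplicit false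
set_option linter.unusedSectionVars false
set_option linter.style.haveILetI false

open CategoryTheory groupCohomology Module Polynomial ExtCitation IsLocalRing

namespace Fermat.Agent.TW.Loc

open Fermat.Agent.CFT Fermat.Agent.S55 Fermat.Agent.S53 Fermat.Agent.TW.Ad0 Fermat.Agent.TW.Sel
open Fermat.Agent.TW.Contracts Fermat.Agent.TW.LocalSpan

local notation "Qb" => AlgebraicClosure ℚ
local notation "GQ" => (AlgebraicClosure ℚ ≃ₐ[ℚ] AlgebraicClosure ℚ)

section Forms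

variable {k : Type} [Field k] {ρbar : ResidualGaloisRep k}

/-- The tangent cocycle of a lift which is unipotent on inertia at `q` is of unipotent type. -/
theorem trace_adCochain_mul_eq_zero (L : TanLift (stdMat ρbar).toHom) (r : MatRep (DualNumber k))
    (hL : L.R = r.toHom) {q : ℕ} (h : r.toAdic.IsUnipotentOnInertiaAt q)
    (P : ValuationSubring Qb) (hP : P.LiesOverPrime q) (g : GQ)
    (hg : g ∈ P.inertiaSubgroupIn ℚ) :
    LinearMap.trace k ρbar.V ((sl ρbar).subtype (L.adCochain g) * ρbar.ρ g) = 0 := by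
  obtain ⟨-, -, h3⟩ := unipotent_forms_of_isUnipotentOnInertiaAt r h P hP g hg
  rw [← hL, L.red] at h3
  have e1 : (sl ρbar).subtype (L.adCochain g) =
      Matrix.toLin (stdBasis ρbar) (stdBasis ρbar) (tanCochain L.R g) := rfl
  rw [e1, ← toLin_stdMat ρbar g, Module.End.mul_eq_comp,
    ← Matrix.toLin_mul (stdBasis ρbar) (stdBasis ρbar) (stdBasis ρbar), trace_toLin]
  exact h3

/-- The reduction of a lift which is unipotent on inertia at `q` is unipotent on inertia. -/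
theorem sub_one_mul_self_of_lift (L : TanLift (stdMat ρbar).toHom) (r : MatRep (DualNumber k))
    (hL : L.R = r.toHom) {q : ℕ} (h : r.toAdic.IsUnipotentOnInertiaAt q)
    (P : ValuationSubring Qb) (hP : P.LiesOverPrime q) (g : GQ)
    (hg : g ∈ P.inertiaSubgroupIn ℚ) :
    (ρbar.ρ g - 1) * (ρbar.ρ g - 1) = 0 := by
  obtain ⟨h1, h2, -⟩ := unipotent_forms_of_isUnipotentOnInertiaAt r h P hP g hg
  rw [← hL, L.red] at h1 h2
  apply Fermat.Agent.BR2.TameRho.sub_one_mul_self_eq_zero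
  rw [← LinearMap.charpoly_toMatrix (ρbar.ρ g) (stdBasis ρbar), ← stdMat_apply,
    Matrix.charpoly_fin_two]
  have e1 : ((stdMat ρbar) g).trace = 2 := h1
  have e2 : ((stdMat ρbar) g).det = 1 := h2
  rw [e1, e2]
  simp only [map_ofNat, map_one]
  ring

/-- The reduction of a deformation (over any local ring) which is unipotent on inertia at `q` is
unipotent on inertia at `q`. -/
theorem sub_one_mul_self_of_residual {A : Type} [CommRing A] [IsLocalRing A]
    [Algebra k (ResidueField A)] (ρbar : ResidualGaloisRep k) (ρ : GaloisRepAdic A)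
    (hres : ρ.residual.IsEquiv (ρbar.baseChange (ResidueField A))) {q : ℕ}
    (h : ρ.IsUnipotentOnInertiaAt q) (P : ValuationSubring Qb) (hP : P.LiesOverPrime q) (g : GQ)
    (hg : g ∈ P.inertiaSubgroupIn ℚ) :
    (ρbar.ρ g - 1) * (ρbar.ρ g - 1) = 0 := by
  have c1 : LinearMap.charpoly (ρ.ρ g) = (X - 1) ^ 2 := h P hP g hg
  have c2 : LinearMap.charpoly (ρ.residual.ρ g) = (X - 1) ^ 2 := by
    have h1 := LinearMap.charpoly_baseChange (A := ResidueField A) (ρ.ρ g)
    rw [c1] at h1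
    refine Eq.trans ?_ (h1.trans (by simp))
    rfl
  obtain ⟨e⟩ := hres
  have c3 : LinearMap.charpoly ((ρbar.baseChange (ResidueField A)).ρ g) = (X - 1) ^ 2 := by
    have e1 : (ρbar.baseChange (ResidueField A)).ρ g = e.toLinearEquiv.conj (ρ.residual.ρ g) := by
      refine LinearMap.ext fun x => ?_
      rw [LinearEquiv.conj_apply_apply, e.map_apply, LinearEquiv.apply_symm_apply]
    rw [e1, LinearEquiv.charpoly_conj, c2]
  have c4 : LinearMap.charpoly (ρbar.ρ g) = (X - 1) ^ 2 := by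
    have h2 := LinearMap.charpoly_baseChange (A := ResidueField A) (ρbar.ρ g)
    have c3' : LinearMap.charpoly ((ρbar.ρ g).baseChange (ResidueField A)) = (X - 1) ^ 2 :=
      Eq.trans rfl c3
    rw [c3'] at h2
    apply Polynomial.map_injective (algebraMap k (ResidueField A))
      (algebraMap k (ResidueField A)).injective
    rw [← h2]
    simp
  exact Fermat.Agent.BR2.TameRho.sub_one_mul_self_eq_zero _ c4

end Forms

section Span

variable {𝒪 : Type} [CommRing 𝒪] [IsLocalRing 𝒪]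

local notation "kk" => ResidueField 𝒪

/-- **(LOC-S)** in the shared vocabulary. -/
theorem locBound_unip (ρbar : ResidualGaloisRep kk) (𝒟 : Cond 𝒪) (T : Finset Nat.Primes)
    (v : Nat.Primes) (h2 : (2 : kk) ≠ 0) (hvk : ((v : ℕ) : kk) ≠ 0)
    (h𝒟 : letI : Algebra 𝒪 (DualNumber kk) := dualNumberAlgebra 𝒪
      ∀ ρ : GaloisRepAdic (DualNumber kk), 𝒟 ρ → ρ.IsUnipotentOnInertiaAt v)
    (hram : ¬ ρbar.IsUnramifiedAt v) : LocBound ρbar 𝒟 T v 0 := by
  letI : Algebra 𝒪 (DualNumber kk) := dualNumberAlgebra 𝒪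
  letI : Fact (v : ℕ).Prime := ⟨v.2⟩
  have hP : (primeLocalPlace v).LiesOverPrime (v : ℕ) := padicPlace_liesOverPrime (v : ℕ)
  -- every tangent class restricts into `unipH1`
  have hle : localTanSpan ρbar 𝒟 T v ≤ unipH1 ρbar v := by
    apply Submodule.span_le.mpr
    rintro _ ⟨x, ⟨ρ, hρ, r, hr, L, hL, hZ, rfl⟩, rfl⟩
    have hr' : r.toAdic.IsUnipotentOnInertiaAt v :=
      isUnipotentOnInertiaAt_of_isEquiv ⟨(Classical.choice hr).symm⟩ (h𝒟 ρ hρ)
    exact lcResH1_mem_unipH1 T v ⟨L.adCochain, hZ⟩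
      (fun g hg => trace_adCochain_mul_eq_zero L r hL hr' _ hP g hg)
  by_cases hne : (tanClasses ρbar 𝒟 T).Nonempty
  · obtain ⟨_, ρ, hρ, r, hr, L, hL, hZ, rfl⟩ := hne
    have hr' : r.toAdic.IsUnipotentOnInertiaAt v :=
      isUnipotentOnInertiaAt_of_isEquiv ⟨(Classical.choice hr).symm⟩ (h𝒟 ρ hρ)
    obtain ⟨hfin, hfr⟩ := finrank_unipH1_le (ρbar := ρbar) v h2 hvk
      (fun g hg => sub_one_mul_self_of_lift L r hL hr' _ hP g hg) hram
    haveI := hfin
    refine ⟨Submodule.finiteDimensional_of_le hle, ?_⟩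
    rw [add_zero]
    exact (Submodule.finrank_mono hle).trans hfr
  · have hbot : localTanSpan ρbar 𝒟 T v = ⊥ := by
      rw [Set.not_nonempty_iff_eq_empty] at hne
      rw [localTanSpan, hne, Set.image_empty, Submodule.span_empty]
    rw [LocBound, hbot]
    refine ⟨inferInstance, ?_⟩
    rw [finrank_bot]
    exact Nat.zero_le _

/-- **(LOC-S), first fact**: the local tangent span at `v` lies in the FIXED submodule `unipH1`
(which does not mention deformations), for every `T`. -/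
theorem localTanSpan_le_unipH1 (ρbar : ResidualGaloisRep kk) (𝒟 : Cond 𝒪) (T : Finset Nat.Primes)
    (v : Nat.Primes)
    (h𝒟 : letI : Algebra 𝒪 (DualNumber kk) := dualNumberAlgebra 𝒪
      ∀ ρ : GaloisRepAdic (DualNumber kk), 𝒟 ρ → ρ.IsUnipotentOnInertiaAt v) :
    localTanSpan ρbar 𝒟 T v ≤ unipH1 ρbar v := by
  letI : Algebra 𝒪 (DualNumber kk) := dualNumberAlgebra 𝒪
  letI : Fact (v : ℕ).Prime := ⟨v.2⟩
  have hP : (primeLocalPlace v).LiesOverPrime (v : ℕ) := padicPlace_liesOverPrime (v : ℕ)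
  apply Submodule.span_le.mpr
  rintro _ ⟨x, ⟨ρ, hρ, r, hr, L, hL, hZ, rfl⟩, rfl⟩
  have hr' : r.toAdic.IsUnipotentOnInertiaAt v :=
    isUnipotentOnInertiaAt_of_isEquiv ⟨(Classical.choice hr).symm⟩ (h𝒟 ρ hρ)
  exact lcResH1_mem_unipH1 T v ⟨L.adCochain, hZ⟩
    (fun g hg => trace_adCochain_mul_eq_zero L r hL hr' _ hP g hg)

/-- If `ρbar` is NOT unipotent on the inertia group at `v` while `𝒟` forces unipotent inertia at
`v`, there is no deformation of type `𝒟` to `k[ε]` at all: the tangent bound holds with `r = 0`. -/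
theorem tangentCardLe_zero_of_not_unip (ρbar : ResidualGaloisRep kk) (𝒟 : Cond 𝒪) (v : Nat.Primes)
    (h𝒟 : letI : Algebra 𝒪 (DualNumber kk) := dualNumberAlgebra 𝒪
      ∀ ρ : GaloisRepAdic (DualNumber kk), 𝒟 ρ → ρ.IsUnipotentOnInertiaAt v)
    (hnot : ¬ ∀ σ ∈ (primeLocalPlace v).inertiaSubgroupIn ℚ,
      (ρbar.ρ σ - 1) * (ρbar.ρ σ - 1) = 0) :
    TangentCardLe 𝒪 ρbar 𝒟 0 := by
  letI : Algebra 𝒪 (DualNumber kk) := dualNumberAlgebra 𝒪
  letI : Algebra kk (ResidueField (DualNumber kk)) := dualNumberResidueAlgebra 𝒪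
  letI : Fact (v : ℕ).Prime := ⟨v.2⟩
  have hP : (primeLocalPlace v).LiesOverPrime (v : ℕ) := padicPlace_liesOverPrime (v : ℕ)
  have hemp : ∀ ρ : {ρ : GaloisRepAdic (DualNumber kk) //
      𝒟 ρ ∧ ρ.residual.IsEquiv (ρbar.baseChange (ResidueField (DualNumber kk)))}, False :=
    fun ρ => hnot (fun σ hσ =>
      sub_one_mul_self_of_residual ρbar ρ.1 ρ.2.2 (h𝒟 ρ.1 ρ.2.1) _ hP σ hσ)
  exact ⟨fun ρ => (hemp ρ).elim, fun ρ => (hemp ρ).elim⟩

/-- **(LOC-q)** in the shared vocabulary. -/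
theorem locBound_aux (ρbar : ResidualGaloisRep kk) (𝒟 : Cond 𝒪) (T : Finset Nat.Primes)
    (v : Nat.Primes) {p : ℕ} (hpk : (p : kk) = 0) (h2 : (2 : kk) ≠ 0)
    (hpq : p ∣ (v : ℕ) - 1) (hur : ρbar.IsUnramifiedAt v)
    (hfrob : ∀ P : ValuationSubring Qb, P.LiesOverPrime v → ∀ φ : GQ, P.IsFrobeniusAt φ v →
      ∃ α β : kk, α ≠ β ∧ LinearMap.charpoly (ρbar.ρ φ) = (X - C α) * (X - C β)) :
    LocBound ρbar 𝒟 T v 1 := by
  obtain ⟨hfin, hfr⟩ := finrank_H1_prime_le (ρbar := ρbar) v hpk h2 hpq hur hfrob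
  haveI := hfin
  exact ⟨inferInstance, (Submodule.finrank_le _).trans hfr⟩

end Span

/-! ### From the bundled hypotheses of S56 -/

section Hyp

variable {𝒪 : Type} [CommRing 𝒪] [IsDomain 𝒪] [IsDiscreteValuationRing 𝒪] {p : ℕ}
  {ρbar : ResidualGaloisRep (ResidueField 𝒪)} {S Smin : Finset ℕ}

local notation "kk" => ResidueField 𝒪

theorem natCast_residueField_eq_zero (H : Hyp 𝒪 p ρbar S Smin) : (p : kk) = 0 := by
  have h1 : (p : kk) = IsLocalRing.residue 𝒪 (p : 𝒪) := (map_natCast _ p).symm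
  rw [h1, IsLocalRing.residue_eq_zero_iff]
  exact H.hp𝒪

theorem natCast_residueField_ne_zero (H : Hyp 𝒪 p ρbar S Smin) {q : ℕ} (hq : q.Prime)
    (hqp : q ≠ p) : (q : kk) ≠ 0 := by
  intro h0
  have hcop : Nat.Coprime p q := (Nat.coprime_primes H.hp hq).mpr (Ne.symm hqp)
  obtain ⟨a, b, hab⟩ : ∃ a b : ℤ, a * p + b * q = 1 := by
    have := Nat.Coprime.isCoprime hcop
    obtain ⟨a, b, h⟩ := this
    exact ⟨a, b, by exact_mod_cast h⟩
  have h1 := congrArg (Int.cast : ℤ → kk) hab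
  push_cast at h1
  rw [natCast_residueField_eq_zero H, h0, mul_zero, mul_zero, add_zero] at h1
  exact zero_ne_one h1

theorem two_ne_zero_of_hyp (H : Hyp 𝒪 p ρbar S Smin) : (2 : kk) ≠ 0 := by
  have := natCast_residueField_ne_zero H Nat.prime_two (Ne.symm H.hp2)
  exact_mod_cast this

/-- **(LOC-S)** from the hypotheses of S56: `v ∈ Smin`, `v ≠ p`. -/
theorem locBound_unip_of_hyp (H : Hyp 𝒪 p ρbar S Smin) (c : ℕ → Finset ℕ → Cond 𝒪)
    (Q : Finset ℕ) (T : Finset Nat.Primes) (v : Nat.Primes) (hv : (v : ℕ) ∈ Smin)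
    (hvp : (v : ℕ) ≠ p) : LocBound ρbar (condQ c p Smin Q) T v 0 :=
  locBound_unip ρbar _ T v (two_ne_zero_of_hyp H) (natCast_residueField_ne_zero H v.2 hvp)
    (fun _ hρ => hρ.2 v hv v.2 hvp) ((H.hmin v v.2 hvp).mp hv)

/-- **(LOC-q)** from the hypotheses of S56: `v ∈ Q`, `Q` an admissible auxiliary set. -/
theorem locBound_aux_of_hyp (H : Hyp 𝒪 p ρbar S Smin) (c : ℕ → Finset ℕ → Cond 𝒪)
    (Q : Finset ℕ) (hQ : IsAux p ρbar S Q) (T : Finset Nat.Primes) (v : Nat.Primes)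
    (hv : (v : ℕ) ∈ Q) : LocBound ρbar (condQ c p Smin Q) T v 1 := by
  obtain ⟨-, hvS, hpv, hfrob⟩ := hQ v hv
  have hvp : (v : ℕ) ≠ p := fun h => hvS (h ▸ H.hSmin H.hpSmin)
  have hur : ρbar.IsUnramifiedAt v := by
    by_contra hn
    exact hvS (H.hSmin ((H.hmin v v.2 hvp).mpr hn))
  exact locBound_aux ρbar _ T v (natCast_residueField_eq_zero H) (two_ne_zero_of_hyp H) hpv hur
    hfrob

end Hyp

end Fermat.Agent.TW.Loc
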