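import Mathlib

/-!
# PROGRAM G (S56), local blocks: a dimension bound for the image of a union of bounded subspaces

`π : Z →ₗ H`, `U ≤ Z`.  If every finite subset of `U` lies in a finite-dimensional subspace `Z'` of
`Z` with `dim Z' ≤ d` and `dim (ker π ⊓ Z') ≥ c`, then `π(U)` is finite-dimensional of dimension
`≤ d - c`.  (Used with `Z` = level-constant cocycles, `π` = class map, `Z'` = the cocycles of a
fixed level, `ker π` = coboundaries.)
-/

set_option autoImplicit false

namespace Fermat.Agent.TW.Loc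

open Module

variable {k Z H : Type*} [Field k] [AddCommGroup Z] [Module k Z] [AddCommGroup H] [Module k H]

theorem rank_map_le_of_forall_finset (π : Z →ₗ[k] H) (U : Submodule k Z) (d c : ℕ)
    (h : ∀ s : Finset Z, (∀ z ∈ s, z ∈ U) → ∃ Z' : Submodule k Z, FiniteDimensional k Z' ∧
      (∀ z ∈ s, z ∈ Z') ∧ finrank k Z' ≤ d ∧ c ≤ finrank k (LinearMap.ker π ⊓ Z' : Submodule k Z)) :
    Module.rank k (U.map π) ≤ ((d - c : ℕ) : Cardinal) := by
  classical
  apply rank_le
  intro t ht
  -- lift the elements of `t`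
  have hlift : ∀ y : ↥(U.map π), ∃ z : Z, z ∈ U ∧ π z = y := fun y => by
    obtain ⟨z, hz, hzy⟩ := y.2
    exact ⟨z, hz, hzy⟩
  choose lift hliftU hliftπ using hlift
  obtain ⟨Z', hfd, hsub, hd, hc⟩ := h (t.image lift) (by
    intro z hz
    obtain ⟨y, -, rfl⟩ := Finset.mem_image.mp hz
    exact hliftU y)
  haveI := hfd
  -- the restriction of `π` to `Z'`
  let π' : Z' →ₗ[k] H := π.domRestrict Z'
  have hker : finrank k (LinearMap.ker π') = finrank k (LinearMap.ker π ⊓ Z' : Submodule k Z) := by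
    have e : (LinearMap.ker π').map Z'.subtype = LinearMap.ker π ⊓ Z' := by
      ext z
      constructor
      · rintro ⟨w, hw, rfl⟩
        exact ⟨hw, w.2⟩
      · rintro ⟨h1, h2⟩
        exact ⟨⟨z, h2⟩, h1, rfl⟩
    rw [← e]
    exact (Submodule.finrank_map_subtype_eq _ _).symm
  have hrk := LinearMap.finrank_range_add_finrank_ker π'
  have hrange : finrank k (LinearMap.range π') ≤ d - c := by omega
  -- the family `t → range π'`
  have hmem : ∀ y : t, ((y : ↥(U.map π)) : H) ∈ LinearMap.range π' := by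
    intro y
    refine ⟨⟨lift y, hsub _ (Finset.mem_image_of_mem lift y.2)⟩, ?_⟩
    exact hliftπ y
  let f : t → LinearMap.range π' := fun y => ⟨((y : ↥(U.map π)) : H), hmem y⟩
  have hf : LinearIndependent k f := by
    have h1 : LinearIndependent k (fun y : t => ((y : ↥(U.map π)) : H)) :=
      ht.map' (U.map π).subtype (Submodule.ker_subtype _)
    exact LinearIndependent.of_comp (LinearMap.range π').subtype h1
  have := hf.fintype_card_le_finrank
  rw [Fintype.card_coe] at this
  omega

theorem finite_map_of_forall_finset (π : Z →ₗ[k] H) (U : Submodule k Z) (d c : ℕ)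
    (h : ∀ s : Finset Z, (∀ z ∈ s, z ∈ U) → ∃ Z' : Submodule k Z, FiniteDimensional k Z' ∧
      (∀ z ∈ s, z ∈ Z') ∧ finrank k Z' ≤ d ∧ c ≤ finrank k (LinearMap.ker π ⊓ Z' : Submodule k Z)) :
    Module.Finite k (U.map π) := by
  rw [← Module.rank_lt_aleph0_iff]
  exact lt_of_le_of_lt (rank_map_le_of_forall_finset π U d c h) (Cardinal.natCast_lt_aleph0)

theorem finrank_map_le_of_forall_finset (π : Z →ₗ[k] H) (U : Submodule k Z) (d c : ℕ)
    (h : ∀ s : Finset Z, (∀ z ∈ s, z ∈ U) → ∃ Z' : Submodule k Z, FiniteDimensional k Z' ∧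
      (∀ z ∈ s, z ∈ Z') ∧ finrank k Z' ≤ d ∧ c ≤ finrank k (LinearMap.ker π ⊓ Z' : Submodule k Z)) :
    finrank k (U.map π) ≤ d - c := by
  haveI := finite_map_of_forall_finset π U d c h
  have h1 := rank_map_le_of_forall_finset π U d c h
  rw [← finrank_eq_rank] at h1
  exact_mod_cast h1

end Fermat.Agent.TW.Loc
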