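import Fermat.Agent.TW.Ad0
import Fermat.Agent.TW.INFLinAlg

/-!
# PROGRAM G (S56), block (LOC-q): the centraliser of a regular semisimple element in `sl₂`

`V` of rank `2` over a field `k` with `2 ≠ 0`, `g : End V` with `charpoly g = (X - α)(X - β)`,
`α ≠ β`.  Then the trace-zero endomorphisms commuting with `g` form the line spanned by
`2 g - (α + β)`.
-/

set_option autoImplicit false

namespace Fermat.Agent.TW.Loc

open Polynomial Module

section Lin

variable {k V : Type*} [Field k] [AddCommGroup V] [Module k V]

/-- Polarised Cayley–Hamilton for trace-zero endomorphisms of a plane. -/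
theorem mul_add_mul_of_trace_eq_zero (hV : finrank k V = 2) (f g : Module.End k V)
    (hf : LinearMap.trace k V f = 0) (hg : LinearMap.trace k V g = 0) :
    f * g + g * f = (LinearMap.trace k V (f * g)) • (1 : Module.End k V) := by
  have : Module.Finite k V := Module.finite_of_finrank_eq_succ hV
  let b := Module.finBasisOfFinrankEq k V hV
  apply (LinearMap.toMatrix b b).injective
  have h := INFLinAlg.mul_add_mul_fin_two (LinearMap.toMatrix b b f) (LinearMap.toMatrix b b g)
  rw [← LinearMap.trace_eq_matrix_trace k b, ← LinearMap.trace_eq_matrix_trace k b,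
    ← LinearMap.toMatrix_mul, ← LinearMap.toMatrix_mul, ← LinearMap.trace_eq_matrix_trace k b,
    hf, hg] at h
  rw [map_add, map_smul, LinearMap.toMatrix_one, h]
  simp

/-- The trace from a split characteristic polynomial. -/
theorem trace_eq_add_of_charpoly (hV : finrank k V = 2) (g : Module.End k V) {α β : k}
    (hg : letI : Module.Finite k V := Module.finite_of_finrank_eq_succ hV
      LinearMap.charpoly g = (X - C α) * (X - C β)) :
    LinearMap.trace k V g = α + β := by
  have : Module.Finite k V := Module.finite_of_finrank_eq_succ hV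
  let b := Module.finBasisOfFinrankEq k V hV
  have h1 : (LinearMap.toMatrix b b g).charpoly = (X - C α) * (X - C β) := by
    rw [LinearMap.charpoly_toMatrix]
    exact hg
  rw [Matrix.charpoly_fin_two] at h1
  have e0 := congrArg (Polynomial.eval 0) h1
  have e1 := congrArg (Polynomial.eval 1) h1
  simp only [eval_add, eval_sub, eval_mul, eval_pow, eval_X, eval_C] at e0 e1
  rw [LinearMap.trace_eq_matrix_trace k b]
  linear_combination e0 - e1

/-- Cayley–Hamilton for a split characteristic polynomial, in the form
`(2 g - (α + β))² = (α - β)²`. -/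
theorem two_smul_sub_sq_of_charpoly [Module.Finite k V] (g : Module.End k V) {α β : k}
    (hg : LinearMap.charpoly g = (X - C α) * (X - C β)) :
    ((2 : k) • g - (α + β) • (1 : Module.End k V)) * ((2 : k) • g - (α + β) • 1) =
      ((α - β) * (α - β)) • (1 : Module.End k V) := by
  have hCH := LinearMap.aeval_self_charpoly g
  rw [hg] at hCH
  have hpoly : (C (2 : k) * X - C (α + β)) * (C (2 : k) * X - C (α + β)) =
      C (4 : k) * ((X - C α) * (X - C β)) + C ((α - β) * (α - β)) := by
    simp only [map_add, map_sub, map_mul, map_ofNat]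
    ring
  have hL : Polynomial.aeval g (C (2 : k) * X - C (α + β)) =
      (2 : k) • g - (α + β) • (1 : Module.End k V) := by
    rw [map_sub, map_mul, aeval_C, aeval_C, aeval_X, Algebra.algebraMap_eq_smul_one,
      Algebra.algebraMap_eq_smul_one, smul_mul_assoc, one_mul]
  have hR : Polynomial.aeval g (C (4 : k) * ((X - C α) * (X - C β)) + C ((α - β) * (α - β))) =
      ((α - β) * (α - β)) • (1 : Module.End k V) := by
    rw [map_add, map_mul, hCH, mul_zero, zero_add, aeval_C, Algebra.algebraMap_eq_smul_one]
  rw [← hL, ← map_mul, hpoly, hR]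

end Lin

open Fermat.Agent.TW.Ad0

variable {k : Type} [Field k] (ρbar : ResidualGaloisRep k)

/-- `{x ∈ sl : x g = g x}` has dimension `≤ 1` for a regular semisimple `g`. -/
theorem finrank_commutant_le_of_charpoly (h2 : (2 : k) ≠ 0) (g : Module.End k ρbar.V) {α β : k}
    (hαβ : α ≠ β) (hg : LinearMap.charpoly g = (X - C α) * (X - C β)) (X : Submodule k (sl ρbar))
    (hX : ∀ x ∈ X, (x : Module.End k ρbar.V) * g = g * x) : finrank k X ≤ 1 := by
  have hV := ρbar.finrank_eq
  have htr : LinearMap.trace k ρbar.V g = α + β := trace_eq_add_of_charpoly hV g hg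
  set g₀ : Module.End k ρbar.V := (2 : k) • g - (α + β) • (1 : Module.End k ρbar.V) with hg₀
  have hg₀tr : LinearMap.trace k ρbar.V g₀ = 0 := by
    rw [hg₀, map_sub, map_smul, map_smul, htr, LinearMap.trace_one, hV]
    simp only [smul_eq_mul]
    push_cast
    ring
  have hsq : g₀ * g₀ = ((α - β) * (α - β)) • (1 : Module.End k ρbar.V) :=
    two_smul_sub_sq_of_charpoly g hg
  have hδ : (α - β) * (α - β) ≠ 0 := mul_ne_zero (sub_ne_zero.mpr hαβ) (sub_ne_zero.mpr hαβ)
  let n₀ : sl ρbar := ⟨g₀, (mem_sl_iff ρbar _).mpr hg₀tr⟩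
  have hle : X ≤ Submodule.span k {n₀} := by
    intro x hx
    have hxg : (x : Module.End k ρbar.V) * g₀ = g₀ * x := by
      rw [hg₀, mul_sub, sub_mul, mul_smul_comm, smul_mul_assoc, hX x hx, mul_smul_comm,
        smul_mul_assoc, mul_one, one_mul]
    have hpol := mul_add_mul_of_trace_eq_zero hV (x : Module.End k ρbar.V) g₀
      ((mem_sl_iff ρbar _).mp x.2) hg₀tr
    rw [← hxg, ← two_smul k ((x : Module.End k ρbar.V) * g₀)] at hpol
    set μ := LinearMap.trace k ρbar.V ((x : Module.End k ρbar.V) * g₀) with hμ
    -- multiply by `g₀` on the right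
    have h3 : (2 * ((α - β) * (α - β))) • (x : Module.End k ρbar.V) = μ • g₀ := by
      have := congrArg (fun y => y * g₀) hpol
      simp only [smul_mul_assoc, one_mul, mul_assoc, hsq, mul_smul_comm, mul_one] at this
      rw [mul_smul]
      exact this
    rw [Submodule.mem_span_singleton]
    refine ⟨μ / (2 * ((α - β) * (α - β))), Subtype.ext ?_⟩
    have hne : (2 * ((α - β) * (α - β)) : k) ≠ 0 := mul_ne_zero h2 hδ
    show (μ / (2 * ((α - β) * (α - β)))) • g₀ = (x : Module.End k ρbar.V)
    rw [div_eq_inv_mul, mul_smul, ← h3, smul_smul, inv_mul_cancel₀ hne, one_smul]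
  calc finrank k X ≤ finrank k (Submodule.span k {n₀}) := Submodule.finrank_mono hle
    _ ≤ 1 := by
      have := finrank_span_le_card (R := k) ({n₀} : Set (sl ρbar))
      simpa using this

end Fermat.Agent.TW.Loc
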