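import Fermat.Agent.TW.Loc.TameCocycle

/-!
# PROGRAM G (S56), block (LOC-q): cocycles of an unramified module on a tamely presented group

Setting of `TameCocycle`.  If inertia, the wild elements and the level `N` act trivially on `M`:

* `IsCoc.phi_apply_tau` : `φ (z τ) = q • z τ` for every `N`-invariant cocycle `z`;
* `invariants_eq_ker` : `M^G = ker (φ - 1)`;
* `finrank_le_of_unramified` : if moreover `q = 1` in `k`, a space of `N`-invariant cocycles has
  dimension `≤ dim M^G + dim M`.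
-/

set_option autoImplicit false

namespace Fermat.Agent.TW.Loc

section Cocycle

variable {k G M : Type*} [Field k] [Group G] [AddCommGroup M] [Module k M]
  {ρ : Representation k G M} {N : Subgroup G} {z : G → M} {q : ℕ} (T : TameGen G N q)

/-- If `τ` acts trivially then `φ` multiplies `z τ` by `q`. -/
theorem IsCoc.phi_apply_tau (hz : IsCoc ρ z) (hN : IsRightInv N z) (hq : (q : k) ≠ 0)
    (hW : ∀ w ∈ T.W, ρ w = 1) (hτ : ρ T.τ = 1) : ρ T.φ (z T.τ) = (q : k) • z T.τ := by
  have h1 := hz.apply_conj T hN hq hW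
  rw [hz.apply_pow_of_trivial hτ] at h1
  have h2 : z (T.φ * T.τ * T.φ⁻¹) = ρ T.φ (z T.τ) := by
    have e1 : ρ (T.φ * T.τ) (ρ T.φ⁻¹ (z T.φ)) = z T.φ := by
      rw [map_mul, Module.End.mul_apply, hτ, Module.End.one_apply, ← Module.End.mul_apply,
        ← map_mul, mul_inv_cancel, map_one, Module.End.one_apply]
    rw [hz, hz, hz.apply_inv, map_neg, e1]
    abel
  rw [← h2, h1]

/-- The group acts through the powers of `φ`. -/
theorem exists_rho_eq_pow (hI : ∀ i ∈ T.I, ρ i = 1) (hNρ : ∀ u ∈ N, ρ u = 1) (g : G) :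
    ∃ n : ℕ, ρ g = ρ T.φ ^ n := by
  obtain ⟨n, i, u, hi, hu, rfl⟩ := T.gen g
  exact ⟨n, by rw [map_mul, map_mul, map_pow, hI i hi, hNρ u hu, mul_one, mul_one]⟩

/-- The invariants are the fixed points of `φ`. -/
theorem invariants_eq_ker (hI : ∀ i ∈ T.I, ρ i = 1) (hNρ : ∀ u ∈ N, ρ u = 1) :
    ρ.invariants = LinearMap.ker (ρ T.φ - 1) := by
  ext x
  rw [Representation.mem_invariants, LinearMap.mem_ker, LinearMap.sub_apply,
    Module.End.one_apply, sub_eq_zero]
  constructor
  · intro h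
    exact h T.φ
  · intro h g
    obtain ⟨n, hn⟩ := exists_rho_eq_pow T hI hNρ g
    rw [hn]
    clear hn
    induction n with
    | zero => rw [pow_zero, Module.End.one_apply]
    | succ n ih => rw [pow_succ, Module.End.mul_apply, h, ih]

end Cocycle

section Bound

variable {k G M : Type*} [Field k] [Group G] [AddCommGroup M] [Module k M]
  [FiniteDimensional k M] (ρ : Representation k G M) {N : Subgroup G} {q : ℕ} (T : TameGen G N q)

/-- **Dimension bound, unramified case with `q = 1` in `k`.** -/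
theorem finrank_le_of_unramified (hq1 : (q : k) = 1) (hI : ∀ i ∈ T.I, ρ i = 1)
    (hNρ : ∀ u ∈ N, ρ u = 1) (hW : ∀ w ∈ T.W, ρ w = 1) (Z : Submodule k (G → M))
    (hZc : ∀ z ∈ Z, IsCoc ρ z) (hZN : ∀ z ∈ Z, IsRightInv N z) :
    Module.finrank k Z ≤ Module.finrank k ρ.invariants + Module.finrank k M := by
  have hq : (q : k) ≠ 0 := by
    rw [hq1]
    exact one_ne_zero
  have hτ : ρ T.τ = 1 := hI _ T.τ_mem
  have hY : ∀ z ∈ Z, z T.τ ∈ LinearMap.ker (ρ T.φ - 1) := by
    intro z hz
    rw [LinearMap.mem_ker, LinearMap.sub_apply, Module.End.one_apply, sub_eq_zero,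
      (hZc z hz).phi_apply_tau T (hZN z hz) hq hW hτ, hq1, one_smul]
  have h1 := finrank_le ρ T hq hW Z hZc hZN _ hY
  rw [← invariants_eq_ker T hI hNρ] at h1
  have h2 : Module.finrank k (LinearMap.ker (ρ (T.φ * T.τ * T.φ⁻¹) - 1)) ≤ Module.finrank k M :=
    Submodule.finrank_le _
  omega

end Bound

end Fermat.Agent.TW.Loc
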