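import Fermat.Agent.TW.Loc.LocS
import Fermat.Agent.TW.Loc.TameUnr
import Fermat.Agent.TW.Loc.LocQLinAlg

/-!
# PROGRAM G (S56), block (LOC-q): `dim H¹(G_q, ad⁰ ρbar) ≤ h⁰(G_q, ad⁰ ρbar) + 1` at Taylor–Wiles primes

`q` a prime with `q = 1` in `k`, `ρbar` unramified at `q` with a Frobenius element having distinct
eigenvalues in `k`.  LC cohomology of `Gq = Gal(ℚ̄_q/ℚ_q)` for the level structure `levelOf r`,
`r = localGaloisToGlobal q`.

* `finrank_H1_le_two_mul` : `dim H¹ ≤ 2 h⁰` (unramified, `q = 1` in `k`);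
* `finrank_invariants_le_one` : `h⁰ ≤ 1` (regular semisimple Frobenius);
* `finrank_H1_le` : `dim H¹ ≤ h⁰ + 1`;
* `finrank_H1_le_of_isAux` : the same from the literal clauses of `Contracts.IsAux`.
-/

set_option autoImplicit false
set_option linter.unusedSectionVars false
set_option linter.style.haveILetI false

open CategoryTheory groupCohomology Module Polynomial

namespace Fermat.Agent.TW.Loc

open Fermat.Agent.CFT Fermat.Agent.S55 Fermat.Agent.TW.Ad0

local notation "Qb" => AlgebraicClosure ℚ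
local notation "GQ" => (AlgebraicClosure ℚ ≃ₐ[ℚ] AlgebraicClosure ℚ)

variable {k : Type} [Field k] {ρbar : ResidualGaloisRep k} {q : ℕ} [hq : Fact q.Prime]

local notation "Gq" => (PadicAlgCl q ≃ₐ[ℚ_[q]] PadicAlgCl q)

/-- All LC cocycles of a fixed level: dimension `≤ h⁰ + 3`. -/
theorem finrank_rightInvZ₁_le (hFG : FrobGenAt (padicPlace q) q) (hq1 : (q : k) = 1)
    (hur : ∀ σ ∈ (padicPlace q).inertiaSubgroupIn ℚ, ρbar.ρ σ = 1)
    (F : IntermediateField ℚ Qb) (hFgal : IsGalois ℚ F) (hFfd : FiniteDimensional ℚ F)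
    (hρF : ∀ u ∈ localLevel q F, ρbar.ρ (localGaloisToGlobal q u) = 1) :
    Module.Finite k (rightInvZ₁ ρbar q (localLevel q F)) ∧
      finrank k (rightInvZ₁ ρbar q (localLevel q F)) ≤
        finrank k (locAd0 ρbar q).ρ.invariants + 3 := by
  classical
  haveI := Fermat.Agent.BR2.TameRho.isAlgebraic_Qbar
  haveI : Normal ℚ F := hFgal.to_normal
  haveI := hFfd
  obtain ⟨T, hTI, -, hTW⟩ := exists_tameGen q hFG F
  have hI : ∀ i ∈ T.I, (locAd0 ρbar q).ρ i = 1 := by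
    intro i hi
    rw [hTI] at hi
    exact rho_eq_one_of_rhobar_eq_one (hur _ hi)
  have hW : ∀ w ∈ T.W, (locAd0 ρbar q).ρ w = 1 := fun w hw =>
    rho_eq_one_of_rhobar_eq_one (hur _ (hTW w hw))
  have hNρ : ∀ u ∈ localLevel q F, (locAd0 ρbar q).ρ u = 1 := fun u hu =>
    rho_eq_one_of_rhobar_eq_one (hρF u hu)
  have hqk : (q : k) ≠ 0 := by
    rw [hq1]
    exact one_ne_zero
  set Z'' : Submodule k (Gq → (locAd0 ρbar q).V) :=
    (rightInvZ₁ ρbar q (localLevel q F)).map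
      (LC.Z₁ (levelOf (localGaloisToGlobal q)) (locAd0 ρbar q)).subtype with hZ''
  have hZc : ∀ z ∈ Z'', IsCoc (locAd0 ρbar q).ρ z := by
    rintro _ ⟨z, -, rfl⟩
    exact isCoc_of_mem_Z₁ z
  have hZN : ∀ z ∈ Z'', IsRightInv (localLevel q F) z := by
    rintro _ ⟨z, hz, rfl⟩
    exact hz
  haveI : Module.Finite k (locAd0 ρbar q).V := inferInstanceAs (Module.Finite k (sl ρbar))
  have h3 : finrank k (locAd0 ρbar q).V = 3 := finrank_sl ρbar
  have hfin : Module.Finite k Z'' := finite_of_tame (locAd0 ρbar q).ρ T hqk hW Z'' hZc hZN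
  have hle := finrank_le_of_unramified (locAd0 ρbar q).ρ T hq1 hI hNρ hW Z'' hZc hZN
  rw [h3] at hle
  have hinj : Function.Injective
      (LC.Z₁ (levelOf (localGaloisToGlobal q)) (locAd0 ρbar q)).subtype :=
    Subtype.val_injective
  have e : (rightInvZ₁ ρbar q (localLevel q F)) ≃ₗ[k] Z'' :=
    Submodule.equivMapOfInjective _ hinj _
  refine ⟨Module.Finite.equiv e.symm, ?_⟩
  rw [e.finrank_eq]
  exact hle

/-- **(LOC-q), first half**: `dim H¹(G_q, ad⁰ ρbar) ≤ 2 h⁰(G_q, ad⁰ ρbar)` if `ρbar` is unramified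
at `q` and `q = 1` in `k`. -/
theorem finrank_H1_le_two_mul (hFG : FrobGenAt (padicPlace q) q) (hq1 : (q : k) = 1)
    (hur : ∀ σ ∈ (padicPlace q).inertiaSubgroupIn ℚ, ρbar.ρ σ = 1) :
    Module.Finite k (LC.H1 (levelOf (localGaloisToGlobal q)) (locAd0 ρbar q)) ∧
      finrank k (LC.H1 (levelOf (localGaloisToGlobal q)) (locAd0 ρbar q)) ≤
        2 * finrank k (locAd0 ρbar q).ρ.invariants := by
  classical
  haveI : Module.Finite k (locAd0 ρbar q).V := inferInstanceAs (Module.Finite k (sl ρbar))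
  have h3 : finrank k (locAd0 ρbar q).V = 3 := finrank_sl ρbar
  set h0 := finrank k (locAd0 ρbar q).ρ.invariants with hh0
  have hh0le : h0 ≤ 3 := by
    rw [← h3]
    exact Submodule.finrank_le _
  have hrange : finrank k (LinearMap.range (cobZ₁ ρbar q)) = 3 - h0 := by
    have := LinearMap.finrank_range_add_finrank_ker (cobZ₁ ρbar q)
    rw [ker_cobZ₁, h3] at this
    omega
  have key : ∀ s : Finset ↥(LC.Z₁ (levelOf (localGaloisToGlobal q)) (locAd0 ρbar q)),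
      (∀ z ∈ s, z ∈ (⊤ : Submodule k
        ↥(LC.Z₁ (levelOf (localGaloisToGlobal q)) (locAd0 ρbar q)))) → ∃ Z' : Submodule k
        ↥(LC.Z₁ (levelOf (localGaloisToGlobal q)) (locAd0 ρbar q)), FiniteDimensional k Z' ∧
      (∀ z ∈ s, z ∈ Z') ∧ finrank k Z' ≤ h0 + 3 ∧ 3 - h0 ≤ finrank k
        (LinearMap.ker (LC.H1π (levelOf (localGaloisToGlobal q)) (locAd0 ρbar q)) ⊓ Z' :
          Submodule k ↥(LC.Z₁ (levelOf (localGaloisToGlobal q)) (locAd0 ρbar q))) := by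
    intro s _
    obtain ⟨F, hFgal, hFfd, hsF, hρF⟩ := exists_common_level (ρbar := ρbar) (q := q) s
    obtain ⟨hfin, hle⟩ := finrank_rightInvZ₁_le hFG hq1 hur F hFgal hFfd hρF
    haveI := hfin
    refine ⟨rightInvZ₁ ρbar q (localLevel q F), hfin, fun z hz => hsF z hz, hle, ?_⟩
    rw [← hrange]
    apply Submodule.finrank_mono
    rintro _ ⟨m, rfl⟩
    exact ⟨LinearMap.mem_ker.mpr (H1π_cobZ₁ m), cobZ₁_mem_rightInvZ₁ (fun u hu =>
      rho_eq_one_of_rhobar_eq_one (hρF u hu)) m⟩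
  have htop : (⊤ : Submodule k ↥(LC.Z₁ (levelOf (localGaloisToGlobal q)) (locAd0 ρbar q))).map
      (LC.H1π (levelOf (localGaloisToGlobal q)) (locAd0 ρbar q)) = ⊤ := by
    rw [Submodule.map_top, LinearMap.range_eq_top]
    exact Submodule.mkQ_surjective _
  have hfin := finite_map_of_forall_finset _ _ (h0 + 3) (3 - h0) key
  have hle := finrank_map_le_of_forall_finset _ _ (h0 + 3) (3 - h0) key
  rw [htop] at hfin hle
  rw [finrank_top] at hle
  refine ⟨?_, by omega⟩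
  exact Module.Finite.equiv (Submodule.topEquiv (R := k)
    (M := LC.H1 (levelOf (localGaloisToGlobal q)) (locAd0 ρbar q)))

/-- **(LOC-q), second half**: `h⁰(G_q, ad⁰ ρbar) ≤ 1` if some Frobenius element at `q` has distinct
eigenvalues. -/
theorem finrank_invariants_le_one (h2 : (2 : k) ≠ 0) {φ : GQ}
    (hφ : (padicPlace q).IsFrobeniusAt φ q) {α β : k} (hαβ : α ≠ β)
    (hchar : LinearMap.charpoly (ρbar.ρ φ) = (X - C α) * (X - C β)) :
    finrank k (locAd0 ρbar q).ρ.invariants ≤ 1 := by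
  obtain ⟨s, hs⟩ := exists_localGaloisToGlobal_eq q hφ.mem_decompositionSubgroup
  refine finrank_commutant_le_of_charpoly ρbar h2 (ρbar.ρ φ) hαβ hchar
    (locAd0 ρbar q).ρ.invariants ?_
  intro x hx
  have hx' : (locAd0 ρbar q).ρ s x = x := hx s
  have h3 : ρbar.ρ φ * (x : Module.End k ρbar.V) * ρbar.ρ φ⁻¹ = (x : Module.End k ρbar.V) := by
    have := (toEnd_rho ρbar q s x).symm.trans (congrArg (toEnd ρbar q) hx')
    rw [hs] at this
    exact this
  calc (x : Module.End k ρbar.V) * ρbar.ρ φ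
      = (ρbar.ρ φ * x * ρbar.ρ φ⁻¹) * ρbar.ρ φ := by rw [h3]
    _ = ρbar.ρ φ * x * (ρbar.ρ φ⁻¹ * ρbar.ρ φ) := by rw [mul_assoc]
    _ = ρbar.ρ φ * x := by rw [rho_inv_mul_rho, mul_one]

/-- **(LOC-q)**: `dim H¹(G_q, ad⁰ ρbar) ≤ h⁰(G_q, ad⁰ ρbar) + 1`. -/
theorem finrank_H1_le (hFG : FrobGenAt (padicPlace q) q) (h2 : (2 : k) ≠ 0) (hq1 : (q : k) = 1)
    (hur : ∀ σ ∈ (padicPlace q).inertiaSubgroupIn ℚ, ρbar.ρ σ = 1) {φ : GQ}
    (hφ : (padicPlace q).IsFrobeniusAt φ q) {α β : k} (hαβ : α ≠ β)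
    (hchar : LinearMap.charpoly (ρbar.ρ φ) = (X - C α) * (X - C β)) :
    Module.Finite k (LC.H1 (levelOf (localGaloisToGlobal q)) (locAd0 ρbar q)) ∧
      finrank k (LC.H1 (levelOf (localGaloisToGlobal q)) (locAd0 ρbar q)) ≤
        finrank k (locAd0 ρbar q).ρ.invariants + 1 := by
  obtain ⟨hfin, hle⟩ := finrank_H1_le_two_mul hFG hq1 hur
  have h1 := finrank_invariants_le_one (ρbar := ρbar) (q := q) h2 hφ hαβ hchar
  exact ⟨hfin, by omega⟩

/-- **(LOC-q)** from the literal clauses of `Contracts.IsAux`. -/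
theorem finrank_H1_le_of_isAux {p : ℕ} (hpk : (p : k) = 0) (h2 : (2 : k) ≠ 0)
    (hFG : FrobGenAt (padicPlace q) q) (hpq : p ∣ q - 1) (hur : ρbar.IsUnramifiedAt q)
    (hfrob : ∀ P : ValuationSubring Qb, P.LiesOverPrime q → ∀ φ : GQ, P.IsFrobeniusAt φ q →
      ∃ α β : k, α ≠ β ∧ LinearMap.charpoly (ρbar.ρ φ) = (X - C α) * (X - C β)) :
    Module.Finite k (LC.H1 (levelOf (localGaloisToGlobal q)) (locAd0 ρbar q)) ∧
      finrank k (LC.H1 (levelOf (localGaloisToGlobal q)) (locAd0 ρbar q)) ≤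
        finrank k (locAd0 ρbar q).ρ.invariants + 1 := by
  have hP : (padicPlace q).LiesOverPrime q := padicPlace_liesOverPrime q
  obtain ⟨φ, hφ⟩ := Fermat.Agent.Cheb.exists_isFrobeniusAt_of_liesOverPrime hq.out hP
  obtain ⟨α, β, hαβ, hchar⟩ := hfrob _ hP φ hφ
  have hq1 : (q : k) = 1 := by
    obtain ⟨c, hc⟩ := hpq
    have hq0 : q = p * c + 1 := by
      have := hq.out.one_lt
      omega
    rw [hq0]
    push_cast
    rw [hpk, zero_mul, zero_add]
  exact finrank_H1_le hFG h2 hq1 (hur _ hP) hφ hαβ hchar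

end Fermat.Agent.TW.Loc
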