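import Fermat.Agent.TW.INFLinAlg

/-!
# PROGRAM G (S56), block (LOC-S), linear algebra of a nontrivial unipotent in rank `2`

`V` of rank `2` over a field `k` with `2 ≠ 0`, `n : End V` with `n ≠ 0`, `n * n = 0`.

* `trace_eq_zero_of_sq_zero` : `tr n = 0`;
* `exists_eq_smul_of_commute_sq_zero` : a trace-zero endomorphism commuting with `n` is a multiple
  of `n` (from `tr(x y) n = tr(n y) x`, a consequence of the polarised Cayley–Hamilton identity);
* `exists_trace_mul_eq_one` : there is a trace-zero `y` with `tr (y * n) = 1`.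
-/

set_option autoImplicit false

namespace Fermat.Agent.TW.Loc.UnipLinAlg

open Matrix Fermat.Agent.TW.INFLinAlg

section Mat

variable {k : Type*} [Field k]

/-- A nonzero matrix has a nonzero trace pairing with some matrix. -/
theorem exists_trace_mul_eq_one_mat (N : Matrix (Fin 2) (Fin 2) k) (hN : N ≠ 0) :
    ∃ Y : Matrix (Fin 2) (Fin 2) k, (N * Y).trace = 1 := by
  have : ∃ i j, N i j ≠ 0 := by
    by_contra h
    apply hN
    ext i j
    by_contra hij
    exact h ⟨i, j, hij⟩
  obtain ⟨i, j, hij⟩ := this
  refine ⟨(N i j)⁻¹ • Matrix.single j i 1, ?_⟩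
  rw [Matrix.mul_smul, Matrix.trace_smul, Matrix.trace_mul_comm, Matrix.trace_single_mul,
    smul_eq_mul]
  simp [hij]

/-- A square-zero `2 × 2` matrix has trace zero. -/
theorem trace_eq_zero_of_sq_zero_mat (N : Matrix (Fin 2) (Fin 2) k)
    (hNN : N * N = 0) : N.trace = 0 := by
  have h := mul_add_mul_fin_two N N
  rw [hNN, Matrix.trace_zero, zero_sub, add_zero] at h
  -- `0 = 2 tr N • N - (tr N)^2 • 1`; multiply by `N`
  by_contra ht
  have h1 := congrArg (fun M => M * N) h
  simp only [zero_mul, add_mul, smul_mul_assoc, hNN, smul_zero, add_zero, zero_add, one_mul,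
    neg_smul, neg_mul] at h1
  -- `0 = -(tr N)^2 • N`
  have hN0 : N = 0 := by
    have h3 : (N.trace * N.trace) • N = 0 := by
      rw [← neg_eq_zero, ← h1]
    exact (smul_eq_zero.mp h3).resolve_left (mul_ne_zero ht ht)
  apply ht
  rw [hN0, Matrix.trace_zero]

/-- The key identity: if `X N = N X = 0`-type relations hold (`X` trace zero commuting with the
square-zero `N`) then `tr(X Y) N = tr(N Y) X` for every `Y`. -/
theorem trace_smul_eq (h2 : (2 : k) ≠ 0) (N X : Matrix (Fin 2) (Fin 2) k) (hN : N ≠ 0)
    (hNN : N * N = 0) (hX : X.trace = 0) (hXN : X * N = N * X) (Y : Matrix (Fin 2) (Fin 2) k) :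
    (X * Y).trace • N = (N * Y).trace • X := by
  have htN := trace_eq_zero_of_sq_zero_mat N hNN
  -- `X N = 0`
  have hXN0 : X * N = 0 := by
    have h := mul_add_mul_fin_two X N
    rw [hX, htN, ← hXN] at h
    simp only [zero_smul, zero_add, mul_zero, sub_zero] at h
    -- `2 X N = tr(X N) • 1`; multiply by `N` on the right
    have h1 := congrArg (fun M => M * N) h
    simp only [add_mul, mul_assoc, hNN, mul_zero, add_zero, smul_mul_assoc, one_mul] at h1
    have ht : (X * N).trace = 0 := by
      by_contra hne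
      exact hN ((smul_eq_zero.mp h1.symm).resolve_left hne)
    rw [ht, zero_smul, ← two_smul k] at h
    exact (smul_eq_zero.mp h).resolve_left h2
  have hNX0 : N * X = 0 := by rw [← hXN, hXN0]
  -- polarised identities for `(X, Y)` and `(N, Y)`
  have hXY := mul_add_mul_fin_two X Y
  have hNY := mul_add_mul_fin_two N Y
  rw [hX] at hXY
  rw [htN] at hNY
  simp only [zero_smul, zero_add, zero_mul, sub_zero] at hXY hNY
  -- `N Y X = tr(X Y) N` and `N Y X = tr(N Y) X`
  have e1 : N * Y * X = (X * Y).trace • N := by
    have := congrArg (fun M => N * M) hXY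
    simp only [mul_add, mul_smul_comm, mul_one] at this
    rw [← mul_assoc, hNX0, zero_mul, zero_add, smul_zero, zero_add, ← mul_assoc] at this
    exact this
  have e2 : N * Y * X = (N * Y).trace • X := by
    have := congrArg (fun M => M * X) hNY
    simp only [add_mul, smul_mul_assoc, one_mul] at this
    rw [mul_assoc Y N X, hNX0, mul_zero, add_zero, smul_zero, zero_add] at this
    exact this
  rw [← e1, e2]

/-- A trace-zero matrix commuting with a nonzero square-zero matrix is a multiple of it. -/
theorem exists_eq_smul_of_commute_sq_zero_mat (h2 : (2 : k) ≠ 0)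
    (N X : Matrix (Fin 2) (Fin 2) k) (hN : N ≠ 0) (hNN : N * N = 0) (hX : X.trace = 0)
    (hXN : X * N = N * X) : ∃ c : k, X = c • N := by
  obtain ⟨Y, hY⟩ := exists_trace_mul_eq_one_mat N hN
  refine ⟨(X * Y).trace, ?_⟩
  rw [trace_smul_eq h2 N X hN hNN hX hXN Y, hY, one_smul]

end Mat

section Lin

variable {k V : Type*} [Field k] [AddCommGroup V] [Module k V]

theorem trace_eq_zero_of_sq_zero (hV : Module.finrank k V = 2)
    (n : Module.End k V) (hnn : n * n = 0) : LinearMap.trace k V n = 0 := by
  have : Module.Finite k V := Module.finite_of_finrank_eq_succ hV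
  let b := Module.finBasisOfFinrankEq k V hV
  rw [LinearMap.trace_eq_matrix_trace k b]
  apply trace_eq_zero_of_sq_zero_mat
  rw [← LinearMap.toMatrix_mul, hnn, map_zero]

/-- A trace-zero endomorphism commuting with a nonzero square-zero endomorphism `n` of a
two-dimensional space is a multiple of `n`. -/
theorem exists_eq_smul_of_commute_sq_zero (hV : Module.finrank k V = 2) (h2 : (2 : k) ≠ 0)
    (n x : Module.End k V) (hn : n ≠ 0) (hnn : n * n = 0)
    (hx : LinearMap.trace k V x = 0) (hxn : x * n = n * x) : ∃ c : k, x = c • n := by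
  have : Module.Finite k V := Module.finite_of_finrank_eq_succ hV
  let b := Module.finBasisOfFinrankEq k V hV
  obtain ⟨c, hc⟩ := exists_eq_smul_of_commute_sq_zero_mat h2 (LinearMap.toMatrix b b n)
    (LinearMap.toMatrix b b x)
    (by
      intro h
      apply hn
      apply (LinearMap.toMatrix b b).injective
      rw [h, map_zero])
    (by rw [← LinearMap.toMatrix_mul, hnn, map_zero])
    (by rw [← LinearMap.trace_eq_matrix_trace k b, hx])
    (by rw [← LinearMap.toMatrix_mul, ← LinearMap.toMatrix_mul, hxn])
  refine ⟨c, (LinearMap.toMatrix b b).injective ?_⟩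
  rw [map_smul]
  exact hc

/-- There is a trace-zero `y` with `tr (y * n) = 1`. -/
theorem exists_trace_mul_eq_one (hV : Module.finrank k V = 2) (h2 : (2 : k) ≠ 0)
    (n : Module.End k V) (hn : n ≠ 0) (hnn : n * n = 0) :
    ∃ y : Module.End k V, LinearMap.trace k V y = 0 ∧ LinearMap.trace k V (y * n) = 1 := by
  have : Module.Finite k V := Module.finite_of_finrank_eq_succ hV
  let b := Module.finBasisOfFinrankEq k V hV
  have htn := trace_eq_zero_of_sq_zero hV n hnn
  obtain ⟨Y, hY⟩ := exists_trace_mul_eq_one_mat (LinearMap.toMatrix b b n) (by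
      intro h
      apply hn
      apply (LinearMap.toMatrix b b).injective
      rw [h, map_zero])
  set y₀ : Module.End k V := Matrix.toLin b b Y with hy₀
  have h1 : LinearMap.trace k V (n * y₀) = 1 := by
    rw [LinearMap.trace_eq_matrix_trace k b, LinearMap.toMatrix_mul, hy₀,
      LinearMap.toMatrix_toLin, hY]
  refine ⟨y₀ - (LinearMap.trace k V y₀ / 2) • 1, ?_, ?_⟩
  · rw [map_sub, map_smul, LinearMap.trace_one, hV, smul_eq_mul]
    have : ((2 : ℕ) : k) = 2 := by norm_num
    rw [this]
    field_simp
    ring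
  · rw [sub_mul, map_sub, smul_mul_assoc, one_mul, map_smul, htn, smul_zero, sub_zero,
      LinearMap.trace_mul_comm, h1]

end Lin

end Fermat.Agent.TW.Loc.UnipLinAlg
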