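import Fermat.Agent.TW.Ad0
import Fermat.Agent.TW.Loc.UnipLinAlg
import Fermat.Agent.BR2.TameRho

/-!
# PROGRAM G (S56), block (LOC-S): the two subspaces of `sl(V)` attached to a nontrivial unipotent

`ρbar : ResidualGaloisRep k` (`V` of rank `2`), `2 ≠ 0` in `k`, `g : End V` with `(g - 1)² = 0`, `g ≠ 1`.

* `eq_one_of_pow_eq_one` : a unipotent `g` with `g ^ m = 1`, `m` invertible in `k`, is `1`;
* `finrank_traceKer_le` : `{y ∈ sl : tr (y g) = 0}` has dimension `≤ 2`;
* `finrank_commutant_le` : `{x ∈ sl : g x = x g}` has dimension `≤ 1`.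
-/

set_option autoImplicit false

namespace Fermat.Agent.TW.Loc

open Fermat.Agent.TW.Ad0 Module

variable {k : Type} [Field k] (ρbar : ResidualGaloisRep k)

/-- A unipotent endomorphism of finite order prime to the characteristic is trivial. -/
theorem eq_one_of_pow_eq_one {E : Type*} [Ring E] [Algebra k E] {g : E}
    (hg : (g - 1) * (g - 1) = 0) {m : ℕ} (hm : (m : k) ≠ 0) (hgm : g ^ m = 1) : g = 1 := by
  have h1 := Fermat.Agent.BR2.TameRho.one_add_pow_of_sq_zero hg m
  rw [add_sub_cancel, hgm] at h1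
  have h2 : (m : E) * (g - 1) = 0 := by
    have := h1
    rw [left_eq_add] at this
    exact this
  have h3 : (m : E) = algebraMap k E (m : k) := by simp
  rw [h3, ← Algebra.smul_def] at h2
  exact sub_eq_zero.mp ((smul_eq_zero.mp h2).resolve_left hm)

/-- The functional `y ↦ tr (y g)` on `sl V`. -/
noncomputable def traceMul (g : Module.End k ρbar.V) : sl ρbar →ₗ[k] k :=
  (LinearMap.trace k ρbar.V) ∘ₗ (LinearMap.mulRight k g) ∘ₗ (sl ρbar).subtype

theorem traceMul_apply (g : Module.End k ρbar.V) (y : sl ρbar) :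
    traceMul ρbar g y = LinearMap.trace k ρbar.V ((y : Module.End k ρbar.V) * g) := rfl

/-- `{y ∈ sl : tr (y g) = 0}` has dimension `≤ 2` for a nontrivial unipotent `g`. -/
theorem finrank_traceKer_le (h2 : (2 : k) ≠ 0) (g : Module.End k ρbar.V)
    (hg : (g - 1) * (g - 1) = 0) (hg1 : g ≠ 1) :
    finrank k (LinearMap.ker (traceMul ρbar g)) ≤ 2 := by
  have hn : g - 1 ≠ 0 := sub_ne_zero.mpr hg1
  obtain ⟨y, hy0, hy1⟩ := UnipLinAlg.exists_trace_mul_eq_one ρbar.finrank_eq h2 (g - 1) hn hg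
  have hsurj : LinearMap.range (traceMul ρbar g) = ⊤ := by
    rw [LinearMap.range_eq_top]
    intro c
    refine ⟨c • ⟨y, (mem_sl_iff ρbar y).mpr hy0⟩, ?_⟩
    rw [map_smul, traceMul_apply]
    have : y * g = y * (g - 1) + y := by rw [mul_sub, mul_one, sub_add_cancel]
    rw [this, map_add, hy1, hy0, add_zero, smul_eq_mul, mul_one]
  have h := LinearMap.finrank_range_add_finrank_ker (traceMul ρbar g)
  rw [hsurj, finrank_top, finrank_self, finrank_sl] at h
  omega

/-- `{x ∈ sl : x g = g x}` has dimension `≤ 1` for a nontrivial unipotent `g`. -/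
theorem finrank_commutant_le (h2 : (2 : k) ≠ 0) (g : Module.End k ρbar.V)
    (hg : (g - 1) * (g - 1) = 0) (hg1 : g ≠ 1) (X : Submodule k (sl ρbar))
    (hX : ∀ x ∈ X, (x : Module.End k ρbar.V) * g = g * x) : finrank k X ≤ 1 := by
  have hn : g - 1 ≠ 0 := sub_ne_zero.mpr hg1
  have htn := UnipLinAlg.trace_eq_zero_of_sq_zero ρbar.finrank_eq (g - 1) hg
  let n₀ : sl ρbar := ⟨g - 1, (mem_sl_iff ρbar _).mpr htn⟩
  have hle : X ≤ Submodule.span k {n₀} := by
    intro x hx
    have hxn : (x : Module.End k ρbar.V) * (g - 1) = (g - 1) * x := by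
      rw [mul_sub, sub_mul, hX x hx, mul_one, one_mul]
    obtain ⟨c, hc⟩ := UnipLinAlg.exists_eq_smul_of_commute_sq_zero ρbar.finrank_eq h2 (g - 1)
      (x : Module.End k ρbar.V) hn hg ((mem_sl_iff ρbar _).mp x.2) hxn
    rw [Submodule.mem_span_singleton]
    exact ⟨c, Subtype.ext hc.symm⟩
  calc finrank k X ≤ finrank k (Submodule.span k {n₀}) := Submodule.finrank_mono hle
    _ ≤ 1 := by
      have := finrank_span_le_card (R := k) ({n₀} : Set (sl ρbar))
      simpa using this

end Fermat.Agent.TW.Loc
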