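import Fermat.Agent.TW.Ad0
import Fermat.Agent.TW.Loc.TameGenLocal
import Fermat.Agent.TW.Loc.LocSLinAlg
import Fermat.Agent.TW.Loc.DirectedBound
import Fermat.Agent.S55.LCBridgeLocal

/-!
# PROGRAM G (S56), block (LOC-S): `dim L_q ≤ h⁰(G_q, ad⁰ ρbar)` for the unipotent condition

`q` a prime, `Gq = Gal(ℚ̄_q/ℚ_q)`, `r = localGaloisToGlobal q`, `P = padicPlace q`,
`A = Rep.res r (ad⁰ ρbar)`, LC cohomology for the level structure `levelOf r`.

`unipZ₁ ρbar q` : the LC `1`-cocycles `z` of `A` of *unipotent type*: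
`tr (z g ∘ ρbar (r g)) = 0` for all `g` with `r g ∈ I_P`  (this is the first-order form of
`charpoly (ρ σ) = (X - 1) ^ 2` on inertia for the deformation `ρ = (1 + ε z) ρbar`).

`finrank_unip_le` : if `ρbar` is unipotent and ramified on `I_P`, `2 q ≠ 0` in `k`, then the image of
`unipZ₁` in `LC.H1` is finite-dimensional of dimension `≤ dim A^{Gq}`.
-/

set_option autoImplicit false
set_option linter.unusedSectionVars false
set_option linter.style.haveILetI false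

open CategoryTheory groupCohomology Module

namespace Fermat.Agent.TW.Loc

open Fermat.Agent.CFT Fermat.Agent.S55 Fermat.Agent.TW.Ad0

local notation "Qb" => AlgebraicClosure ℚ
local notation "GQ" => (AlgebraicClosure ℚ ≃ₐ[ℚ] AlgebraicClosure ℚ)

variable {k : Type} [Field k] (ρbar : ResidualGaloisRep k) (q : ℕ) [hq : Fact q.Prime]

local notation "Gq" => (PadicAlgCl q ≃ₐ[ℚ_[q]] PadicAlgCl q)

/-- `ad⁰ ρbar` restricted to the local Galois group at `q`. -/
noncomputable abbrev locAd0 : Rep k Gq := Rep.res (localGaloisToGlobal q) (ad0Rep ρbar)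

/-- The underlying endomorphism of an element of `ad⁰ ρbar`. -/
noncomputable def toEnd : (locAd0 ρbar q).V →ₗ[k] Module.End k ρbar.V := (sl ρbar).subtype

theorem toEnd_injective : Function.Injective (toEnd ρbar q) := Subtype.val_injective

theorem trace_toEnd (m : (locAd0 ρbar q).V) : LinearMap.trace k ρbar.V (toEnd ρbar q m) = 0 :=
  (mem_sl_iff ρbar _).mp (m : sl ρbar).2

theorem toEnd_rho (g : Gq) (m : (locAd0 ρbar q).V) :
    toEnd ρbar q ((locAd0 ρbar q).ρ g m) =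
      ρbar.ρ (localGaloisToGlobal q g) * toEnd ρbar q m * ρbar.ρ (localGaloisToGlobal q g)⁻¹ :=
  coe_ad0Repn_apply ρbar (localGaloisToGlobal q g) m

/-- The LC `1`-cocycles of unipotent type. -/
noncomputable def unipZ₁ :
    Submodule k ↥(LC.Z₁ (levelOf (localGaloisToGlobal q)) (locAd0 ρbar q)) where
  carrier := {z | ∀ g : Gq, localGaloisToGlobal q g ∈ (padicPlace q).inertiaSubgroupIn ℚ →
    LinearMap.trace k ρbar.V (toEnd ρbar q (z.1 g) * ρbar.ρ (localGaloisToGlobal q g)) = 0}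
  add_mem' := by
    intro a b ha hb g hg
    have : (a + b).1 g = a.1 g + b.1 g := rfl
    rw [this, map_add, add_mul, map_add, ha g hg, hb g hg, add_zero]
  zero_mem' := by
    intro g _
    have : (0 : ↥(LC.Z₁ (levelOf (localGaloisToGlobal q)) (locAd0 ρbar q))).1 g = 0 := rfl
    rw [this, map_zero, zero_mul, map_zero]
  smul_mem' := by
    intro c a ha g hg
    have : (c • a).1 g = c • a.1 g := rfl
    rw [this, map_smul, smul_mul_assoc, map_smul, ha g hg, smul_zero]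

theorem mem_unipZ₁_iff (z : ↥(LC.Z₁ (levelOf (localGaloisToGlobal q)) (locAd0 ρbar q))) :
    z ∈ unipZ₁ ρbar q ↔ ∀ g : Gq,
      localGaloisToGlobal q g ∈ (padicPlace q).inertiaSubgroupIn ℚ →
      LinearMap.trace k ρbar.V (toEnd ρbar q (z.1 g) * ρbar.ρ (localGaloisToGlobal q g)) = 0 :=
  Iff.rfl

/-! ### Consequences of the level -/

section Level

variable {ρbar q}

/-- If `ρbar (r u) = 1` then `u` acts trivially on `ad⁰`. -/
theorem rho_eq_one_of_rhobar_eq_one {u : Gq} (hu : ρbar.ρ (localGaloisToGlobal q u) = 1) :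
    (locAd0 ρbar q).ρ u = 1 := by
  have hinv : ρbar.ρ (localGaloisToGlobal q u)⁻¹ = 1 := by
    have := rho_inv_mul_rho ρbar (localGaloisToGlobal q u)
    rw [hu, mul_one] at this
    exact this
  ext m
  apply toEnd_injective ρbar q
  rw [toEnd_rho, hu, hinv, one_mul, mul_one]
  rfl

/-- The cocycle identity in the form used by `TameCocycle`. -/
theorem isCoc_of_mem_Z₁ (z : ↥(LC.Z₁ (levelOf (localGaloisToGlobal q)) (locAd0 ρbar q))) :
    IsCoc (locAd0 ρbar q).ρ z.1 := by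
  intro g h
  rw [(mem_cocycles₁_iff _).mp z.2.1 g h, add_comm]

end Level

/-! ### A common level for finitely many cocycles -/

section CommonLevel

local instance instIsAlgClosureQbLocS : IsAlgClosure ℚ Qb := AlgebraicClosure.instIsAlgClosure ℚ
local instance instIsGaloisQbLocS : IsGalois ℚ Qb :=
  Fermat.Agent.S54.FrobExists.isGalois_rat_algebraicClosure

/-- Finitely many LC cocycles are right-invariant under the level of a common finite Galois `F`
which can moreover be chosen so large that `ρbar` is trivial on it. -/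
theorem exists_common_level
    (s : Finset ↥(LC.Z₁ (levelOf (localGaloisToGlobal q)) (locAd0 ρbar q))) :
    ∃ F : IntermediateField ℚ Qb, IsGalois ℚ F ∧ FiniteDimensional ℚ F ∧
      (∀ z ∈ s, IsRightInv (localLevel q F) z.1) ∧
      ∀ u ∈ localLevel q F, ρbar.ρ (localGaloisToGlobal q u) = 1 := by
  classical
  let Lv := levelOf (localGaloisToGlobal q)
  -- a level for each cocycle
  have hlev : ∀ z : ↥(LC.Z₁ (levelOf (localGaloisToGlobal q)) (locAd0 ρbar q)),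
      ∃ N, Lv.IsLevel N ∧
      ∀ g, ∀ u ∈ N, z.1 (g * u) = z.1 g := fun z => z.2.2
  choose Nz hNz hNzinv using hlev
  obtain ⟨N₁, hN₁, hN₁le⟩ := Lv.exists_level_le_of_finite s Nz (fun z _ => hNz z)
  -- the level of `ρbar`
  obtain ⟨L₀, hL₀fd, hL₀⟩ := ρbar.factorsThroughFiniteLevel
  haveI := hL₀fd
  obtain ⟨E₀, hL₀E₀, hE₀gal, hE₀fd⟩ := exists_isGalois_ge L₀
  have hN₀ : Lv.IsLevel (E₀.fixingSubgroup.comap (localGaloisToGlobal q)) :=
    ⟨_, ⟨E₀, hE₀gal, hE₀fd, rfl⟩, rfl⟩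
  obtain ⟨N₂, hN₂, hN₂le⟩ := Lv.directed hN₁ hN₀
  obtain ⟨N, ⟨F, hFgal, hFfd, rfl⟩, rfl⟩ := hN₂
  refine ⟨F, hFgal, hFfd, ?_, ?_⟩
  · intro z hz g u hu
    exact hNzinv z g u (hN₁le z hz ((hN₂le.trans inf_le_left) hu))
  · intro u hu
    have hu' : localGaloisToGlobal q u ∈ E₀.fixingSubgroup := (hN₂le.trans inf_le_right) hu
    apply hL₀
    intro x hx
    exact (IntermediateField.mem_fixingSubgroup_iff _ _).mp hu' x (hL₀E₀ hx)

end CommonLevel

/-! ### The bound at a fixed level -/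

section FixedLevel

/-- The LC cocycles right-invariant under `N`. -/
noncomputable def rightInvZ₁ (N : Subgroup Gq) :
    Submodule k ↥(LC.Z₁ (levelOf (localGaloisToGlobal q)) (locAd0 ρbar q)) where
  carrier := {z | IsRightInv N z.1}
  add_mem' := by
    intro a b ha hb g u hu
    show a.1 (g * u) + b.1 (g * u) = a.1 g + b.1 g
    rw [ha g u hu, hb g u hu]
  zero_mem' := fun _ _ _ => rfl
  smul_mem' := by
    intro c a ha g u hu
    show c • a.1 (g * u) = c • a.1 g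
    rw [ha g u hu]

/-- The cocycles of unipotent type at level `N`. -/
noncomputable def unipZ₁Level (N : Subgroup Gq) :
    Submodule k ↥(LC.Z₁ (levelOf (localGaloisToGlobal q)) (locAd0 ρbar q)) :=
  unipZ₁ ρbar q ⊓ rightInvZ₁ ρbar q N

variable {ρbar q}

theorem finrank_unipZ₁Level_le (hFG : FrobGenAt (padicPlace q) q) (h2 : (2 : k) ≠ 0)
    (hqk : (q : k) ≠ 0)
    (hunip : ∀ σ ∈ (padicPlace q).inertiaSubgroupIn ℚ, (ρbar.ρ σ - 1) * (ρbar.ρ σ - 1) = 0)
    (hram : ∃ σ ∈ (padicPlace q).inertiaSubgroupIn ℚ, ρbar.ρ σ ≠ 1)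
    (F : IntermediateField ℚ Qb) (hFgal : IsGalois ℚ F) (hFfd : FiniteDimensional ℚ F)
    (hρF : ∀ u ∈ localLevel q F, ρbar.ρ (localGaloisToGlobal q u) = 1) :
    Module.Finite k (unipZ₁Level ρbar q (localLevel q F)) ∧
      finrank k (unipZ₁Level ρbar q (localLevel q F)) ≤ 3 := by
  classical
  haveI := Fermat.Agent.BR2.TameRho.isAlgebraic_Qbar
  haveI : Normal ℚ F := hFgal.to_normal
  haveI := hFfd
  set r := localGaloisToGlobal q with hr
  set P := padicPlace q with hPdef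
  obtain ⟨T, hTI, hTφ, hTW⟩ := exists_tameGen q hFG F
  -- wild elements act trivially
  have hWρbar : ∀ w ∈ T.W, ρbar.ρ (r w) = 1 := by
    intro w hw
    obtain ⟨a, ha⟩ := T.wild w hw
    have h1 : ρbar.ρ (r w) ^ (q ^ a) = 1 := by
      rw [← map_pow, ← map_pow]
      exact hρF _ ha
    have hqa : ((q ^ a : ℕ) : k) ≠ 0 := by
      rw [Nat.cast_pow]
      exact pow_ne_zero _ hqk
    exact eq_one_of_pow_eq_one (k := k) (hunip _ (hTW w hw)) hqa h1
  have hW : ∀ w ∈ T.W, (locAd0 ρbar q).ρ w = 1 := fun w hw =>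
    rho_eq_one_of_rhobar_eq_one (hWρbar w hw)
  have hNρ : ∀ u ∈ localLevel q F, (locAd0 ρbar q).ρ u = 1 := fun u hu =>
    rho_eq_one_of_rhobar_eq_one (hρF u hu)
  -- `τ` and its conjugate are in inertia
  have hτI : r T.τ ∈ P.inertiaSubgroupIn ℚ := by
    have := T.τ_mem
    rw [hTI] at this
    exact this
  have hcI : r (T.φ * T.τ * T.φ⁻¹) ∈ P.inertiaSubgroupIn ℚ := by
    rw [map_mul, map_mul, map_inv]
    exact Fermat.Agent.BR2.TameChar.conj_mem_inertia hTφ.mem_decompositionSubgroup hτI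
  -- `ρbar (r τ) ≠ 1`
  have hτ1 : ρbar.ρ (r T.τ) ≠ 1 := by
    intro h1
    obtain ⟨σ, hσI, hσ1⟩ := hram
    have hσD : σ ∈ P.decompositionSubgroup ℚ :=
      ((Fermat.Agent.BR2.TameChar.mem_inertia_iff P σ).mp hσI).1
    obtain ⟨s, hs⟩ := exists_localGaloisToGlobal_eq q hσD
    have hsI : s ∈ T.I := by
      rw [hTI]
      show r s ∈ P.inertiaSubgroupIn ℚ
      rw [hs]
      exact hσI
    obtain ⟨m, w, u, hw, hu, hswu⟩ := T.genI s hsI
    apply hσ1
    have hexp : ρbar.ρ (r (T.τ ^ m * w * u)) =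
        ρbar.ρ (r T.τ) ^ m * ρbar.ρ (r w) * ρbar.ρ (r u) := by
      simp only [map_mul, map_pow]
    rw [← hs, hswu, hexp, h1, one_pow, hWρbar w hw, hρF u hu, one_mul, one_mul]
  have hc1 : ρbar.ρ (r (T.φ * T.τ * T.φ⁻¹)) ≠ 1 := by
    intro h1
    apply hτ1
    rw [map_mul, map_mul, map_mul, map_mul] at h1
    have h2 : ρbar.ρ (r T.τ) = ρbar.ρ (r T.φ⁻¹) * (ρbar.ρ (r T.φ) * ρbar.ρ (r T.τ) *
        ρbar.ρ (r T.φ⁻¹)) * ρbar.ρ (r T.φ) := by
      have e1 : ρbar.ρ (r T.φ⁻¹) * ρbar.ρ (r T.φ) = 1 := by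
        rw [← map_mul, ← map_mul, inv_mul_cancel, map_one, map_one]
      calc ρbar.ρ (r T.τ) = (ρbar.ρ (r T.φ⁻¹) * ρbar.ρ (r T.φ)) * ρbar.ρ (r T.τ) *
            (ρbar.ρ (r T.φ⁻¹) * ρbar.ρ (r T.φ)) := by rw [e1, one_mul, mul_one]
        _ = _ := by noncomm_ring
    rw [h2, h1, mul_one]
    rw [← map_mul, ← map_mul, inv_mul_cancel, map_one, map_one]
  -- the space of functions
  set Z'' : Submodule k (Gq → (locAd0 ρbar q).V) :=
    (unipZ₁Level ρbar q (localLevel q F)).map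
      (LC.Z₁ (levelOf (localGaloisToGlobal q)) (locAd0 ρbar q)).subtype with hZ''
  have hZc : ∀ z ∈ Z'', IsCoc (locAd0 ρbar q).ρ z := by
    rintro _ ⟨z, -, rfl⟩
    exact isCoc_of_mem_Z₁ z
  have hZN : ∀ z ∈ Z'', IsRightInv (localLevel q F) z := by
    rintro _ ⟨z, hz, rfl⟩
    exact hz.2
  have hZU : ∀ z ∈ Z'', ∀ g : Gq, r g ∈ P.inertiaSubgroupIn ℚ →
      LinearMap.trace k ρbar.V (toEnd ρbar q (z g) * ρbar.ρ (r g)) = 0 := by
    rintro _ ⟨z, hz, rfl⟩
    exact hz.1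
  -- the two subspaces
  haveI : Module.Finite k (locAd0 ρbar q).V := inferInstanceAs (Module.Finite k (sl ρbar))
  let Y : Submodule k (locAd0 ρbar q).V := LinearMap.ker (traceMul ρbar (ρbar.ρ (r T.τ)))
  have hY : ∀ z ∈ Z'', z T.τ ∈ Y := by
    intro z hz
    exact hZU z hz T.τ hτI
  have hfin : Module.Finite k Z'' := finite_of_tame (locAd0 ρbar q).ρ T hqk hW Z'' hZc hZN
  have hle := finrank_le (locAd0 ρbar q).ρ T hqk hW Z'' hZc hZN Y hY
  have hYle : finrank k Y ≤ 2 := finrank_traceKer_le ρbar h2 _ (hunip _ hτI) hτ1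
  have hXle : finrank k (LinearMap.ker ((locAd0 ρbar q).ρ (T.φ * T.τ * T.φ⁻¹) - 1)) ≤ 1 := by
    refine finrank_commutant_le ρbar h2 (ρbar.ρ (r (T.φ * T.τ * T.φ⁻¹))) (hunip _ hcI) hc1
      (LinearMap.ker ((locAd0 ρbar q).ρ (T.φ * T.τ * T.φ⁻¹) - 1)) ?_
    intro x hx
    rw [LinearMap.mem_ker] at hx
    replace hx : (locAd0 ρbar q).ρ (T.φ * T.τ * T.φ⁻¹) x = x := sub_eq_zero.mp hx
    have h3 : ρbar.ρ (r (T.φ * T.τ * T.φ⁻¹)) * (x : Module.End k ρbar.V) *
        ρbar.ρ (r (T.φ * T.τ * T.φ⁻¹))⁻¹ = (x : Module.End k ρbar.V) :=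
      (toEnd_rho ρbar q (T.φ * T.τ * T.φ⁻¹) x).symm.trans (congrArg (toEnd ρbar q) hx)
    calc (x : Module.End k ρbar.V) * ρbar.ρ (r (T.φ * T.τ * T.φ⁻¹))
        = (ρbar.ρ (r (T.φ * T.τ * T.φ⁻¹)) * x * ρbar.ρ (r (T.φ * T.τ * T.φ⁻¹))⁻¹) *
          ρbar.ρ (r (T.φ * T.τ * T.φ⁻¹)) := by rw [h3]
      _ = ρbar.ρ (r (T.φ * T.τ * T.φ⁻¹)) * x *
          (ρbar.ρ (r (T.φ * T.τ * T.φ⁻¹))⁻¹ * ρbar.ρ (r (T.φ * T.τ * T.φ⁻¹))) := by
          rw [mul_assoc]
      _ = ρbar.ρ (r (T.φ * T.τ * T.φ⁻¹)) * x := by rw [rho_inv_mul_rho, mul_one]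
  -- transfer back along the injective subtype
  have hinj : Function.Injective
      (LC.Z₁ (levelOf (localGaloisToGlobal q)) (locAd0 ρbar q)).subtype :=
    Subtype.val_injective
  have e : (unipZ₁Level ρbar q (localLevel q F)) ≃ₗ[k] Z'' :=
    Submodule.equivMapOfInjective _ hinj _
  refine ⟨Module.Finite.equiv e.symm, ?_⟩
  rw [e.finrank_eq]
  omega

end FixedLevel

/-! ### Coboundaries and the final bound -/

section Final

variable {ρbar q}

/-- `ad⁰ ρbar` restricted to `Gq` is smooth. -/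
theorem isSmooth_locAd0 : IsSmooth (levelOf (localGaloisToGlobal q)) (locAd0 ρbar q) := by
  intro m
  obtain ⟨L₀, hL₀fd, hL₀⟩ := ρbar.factorsThroughFiniteLevel
  haveI := hL₀fd
  obtain ⟨E, hFE, hgal, hfd⟩ := exists_isGalois_ge L₀
  refine ⟨_, ⟨_, ⟨E, hgal, hfd, rfl⟩, rfl⟩, fun g hg => ?_⟩
  have h1 : ρbar.ρ (localGaloisToGlobal q g) = 1 := by
    apply hL₀
    intro x hx
    exact (IntermediateField.mem_fixingSubgroup_iff _ _).mp hg x (hFE hx)
  rw [rho_eq_one_of_rhobar_eq_one h1]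
  rfl

variable (ρbar q) in
/-- The coboundary map with values in the LC cocycles. -/
noncomputable def cobZ₁ : (locAd0 ρbar q).V →ₗ[k]
    ↥(LC.Z₁ (levelOf (localGaloisToGlobal q)) (locAd0 ρbar q)) :=
  LinearMap.codRestrict _ (d₀₁ (locAd0 ρbar q)).hom
    (fun m => LC.B₁_le_Z₁ isSmooth_locAd0 ⟨m, rfl⟩)

theorem cobZ₁_apply (m : (locAd0 ρbar q).V) (g : Gq) :
    (cobZ₁ ρbar q m).1 g = (locAd0 ρbar q).ρ g m - m := rfl

theorem ker_cobZ₁ : LinearMap.ker (cobZ₁ ρbar q) = (locAd0 ρbar q).ρ.invariants := by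
  rw [cobZ₁, LinearMap.ker_codRestrict, d₀₁_ker_eq_invariants]

theorem H1π_cobZ₁ (m : (locAd0 ρbar q).V) :
    LC.H1π (levelOf (localGaloisToGlobal q)) (locAd0 ρbar q) (cobZ₁ ρbar q m) = 0 := by
  rw [LC.H1π_eq_zero_iff]
  exact ⟨m, rfl⟩

theorem cobZ₁_mem_unipZ₁ (m : (locAd0 ρbar q).V) : cobZ₁ ρbar q m ∈ unipZ₁ ρbar q := by
  intro g _
  rw [cobZ₁_apply, map_sub, toEnd_rho, sub_mul, map_sub, mul_assoc, rho_inv_mul_rho, mul_one,
    LinearMap.trace_mul_comm, sub_self]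

theorem cobZ₁_mem_rightInvZ₁ {N : Subgroup Gq} (hN : ∀ u ∈ N, (locAd0 ρbar q).ρ u = 1)
    (m : (locAd0 ρbar q).V) : cobZ₁ ρbar q m ∈ rightInvZ₁ ρbar q N := by
  intro g u hu
  rw [cobZ₁_apply, cobZ₁_apply, map_mul, Module.End.mul_apply, hN u hu, Module.End.one_apply]

/-- **(LOC-S)** The classes of the cocycles of unipotent type span a space of dimension at most
`h⁰(G_q, ad⁰ ρbar)`. -/
theorem finrank_unip_le (hFG : FrobGenAt (padicPlace q) q) (h2 : (2 : k) ≠ 0)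
    (hqk : (q : k) ≠ 0)
    (hunip : ∀ σ ∈ (padicPlace q).inertiaSubgroupIn ℚ, (ρbar.ρ σ - 1) * (ρbar.ρ σ - 1) = 0)
    (hram : ∃ σ ∈ (padicPlace q).inertiaSubgroupIn ℚ, ρbar.ρ σ ≠ 1) :
    Module.Finite k ((unipZ₁ ρbar q).map
        (LC.H1π (levelOf (localGaloisToGlobal q)) (locAd0 ρbar q))) ∧
      finrank k ((unipZ₁ ρbar q).map
        (LC.H1π (levelOf (localGaloisToGlobal q)) (locAd0 ρbar q))) ≤
        finrank k (locAd0 ρbar q).ρ.invariants := by
  classical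
  haveI : Module.Finite k (locAd0 ρbar q).V := inferInstanceAs (Module.Finite k (sl ρbar))
  have h3 : finrank k (locAd0 ρbar q).V = 3 := finrank_sl ρbar
  set h0 := finrank k (locAd0 ρbar q).ρ.invariants with hh0
  have hh0le : h0 ≤ 3 := by
    rw [← h3]
    exact Submodule.finrank_le _
  have hrange : finrank k (LinearMap.range (cobZ₁ ρbar q)) = 3 - h0 := by
    have := LinearMap.finrank_range_add_finrank_ker (cobZ₁ ρbar q)
    rw [ker_cobZ₁, h3] at this
    omega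
  have key : ∀ s : Finset ↥(LC.Z₁ (levelOf (localGaloisToGlobal q)) (locAd0 ρbar q)),
      (∀ z ∈ s, z ∈ unipZ₁ ρbar q) → ∃ Z' : Submodule k
        ↥(LC.Z₁ (levelOf (localGaloisToGlobal q)) (locAd0 ρbar q)), FiniteDimensional k Z' ∧
      (∀ z ∈ s, z ∈ Z') ∧ finrank k Z' ≤ 3 ∧ 3 - h0 ≤ finrank k
        (LinearMap.ker (LC.H1π (levelOf (localGaloisToGlobal q)) (locAd0 ρbar q)) ⊓ Z' :
          Submodule k ↥(LC.Z₁ (levelOf (localGaloisToGlobal q)) (locAd0 ρbar q))) := by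
    intro s hs
    obtain ⟨F, hFgal, hFfd, hsF, hρF⟩ := exists_common_level (ρbar := ρbar) (q := q) s
    obtain ⟨hfin, hle⟩ := finrank_unipZ₁Level_le hFG h2 hqk hunip hram F hFgal hFfd hρF
    haveI := hfin
    refine ⟨unipZ₁Level ρbar q (localLevel q F), hfin, fun z hz => ⟨hs z hz, hsF z hz⟩, hle, ?_⟩
    rw [← hrange]
    apply Submodule.finrank_mono
    rintro _ ⟨m, rfl⟩
    refine ⟨?_, cobZ₁_mem_unipZ₁ m, cobZ₁_mem_rightInvZ₁ (fun u hu =>
      rho_eq_one_of_rhobar_eq_one (hρF u hu)) m⟩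
    exact LinearMap.mem_ker.mpr (H1π_cobZ₁ m)
  refine ⟨finite_map_of_forall_finset _ _ 3 (3 - h0) key, ?_⟩
  have := finrank_map_le_of_forall_finset _ _ 3 (3 - h0) key
  omega

end Final

end Fermat.Agent.TW.Loc
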