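import Fermat.Agent.TW.Loc.LocQ
import Fermat.Agent.TW.Loc.FrobGen
import Fermat.Agent.S55.LCBridgeCompat
import Fermat.Agent.S13.InertiaConj

/-!
# PROGRAM G (S56), blocks (LOC-S) and (LOC-q): consumer-facing statements

Everything in the vocabulary of `S55.lcLocTotal₁`: `v : Nat.Primes`, the local group
`primeLocalGaloisGroup v`, the structure map `primeLocalToGlobal v`, the place `primeLocalPlace v`,
level cohomology `LC.H1 (levelOf (primeLocalToGlobal v)) (Rep.res (primeLocalToGlobal v) (ad0Rep ρbar))`.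

* `unipH1 ρbar v` : the local condition at `v ∈ Smin ∖ {p}` (classes of cocycles of unipotent type);
* `lcResH1_mem_unipH1` : the restriction of a global LC class whose cocycle `c` satisfies
  `tr (c g ∘ ρbar g) = 0` on the inertia group of `primeLocalPlace v` lies in `unipH1 ρbar v`;
* `finrank_unipH1_le` : **(LOC-S)** `dim unipH1 ≤ h⁰(G_v, ad⁰ ρbar)`;
* `finrank_H1_prime_le` : **(LOC-q)** `dim H¹(G_v, ad⁰ ρbar) ≤ h⁰(G_v, ad⁰ ρbar) + 1` at
  Taylor–Wiles primes.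
-/

set_option autoImplicit false
set_option linter.unusedSectionVars false
set_option linter.style.haveILetI false

open CategoryTheory groupCohomology Module Polynomial ExtCitation

namespace Fermat.Agent.TW.Loc

open Fermat.Agent.CFT Fermat.Agent.S55 Fermat.Agent.TW.Ad0

local notation "Qb" => AlgebraicClosure ℚ
local notation "GQ" => (AlgebraicClosure ℚ ≃ₐ[ℚ] AlgebraicClosure ℚ)

variable {k : Type} [Field k] (ρbar : ResidualGaloisRep k)

/-- `ad⁰ ρbar` restricted to the local Galois group at `v`. -/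
noncomputable abbrev locAd0P (v : Nat.Primes) : Rep k (primeLocalGaloisGroup v) :=
  Rep.res (primeLocalToGlobal v) (ad0Rep ρbar)

/-- The local condition at `v ∈ Smin ∖ {p}`: classes of LC cocycles of unipotent type. -/
noncomputable def unipH1 (v : Nat.Primes) :
    Submodule k (LC.H1 (levelOf (primeLocalToGlobal v)) (locAd0P ρbar v)) :=
  letI : Fact (v : ℕ).Prime := ⟨v.2⟩
  (unipZ₁ ρbar (v : ℕ)).map
    (LC.H1π (levelOf (localGaloisToGlobal (v : ℕ))) (locAd0 ρbar (v : ℕ)))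

variable {ρbar}

/-- The class of a local LC cocycle of unipotent type lies in `unipH1`. -/
theorem H1π_mem_unipH1 (v : Nat.Primes)
    (z : ↥(LC.Z₁ (levelOf (primeLocalToGlobal v)) (locAd0P ρbar v)))
    (hz : ∀ g : primeLocalGaloisGroup v,
      primeLocalToGlobal v g ∈ (primeLocalPlace v).inertiaSubgroupIn ℚ →
      LinearMap.trace k ρbar.V ((sl ρbar).subtype (z.1 g) *
        ρbar.ρ (primeLocalToGlobal v g)) = 0) :
    LC.H1π (levelOf (primeLocalToGlobal v)) (locAd0P ρbar v) z ∈ unipH1 ρbar v := by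
  letI : Fact (v : ℕ).Prime := ⟨v.2⟩
  exact ⟨z, hz, rfl⟩

/-- The restriction to `v` of the class of a global LC cocycle which is of unipotent type on the
inertia group of `primeLocalPlace v` lies in `unipH1`. -/
theorem lcResH1_mem_unipH1 (T : Finset Nat.Primes) (v : Nat.Primes)
    (c : ↥(LC.Z₁ (globalLevel T) (ad0Rep ρbar)))
    (hc : ∀ g ∈ (primeLocalPlace v).inertiaSubgroupIn ℚ,
      LinearMap.trace k ρbar.V ((sl ρbar).subtype (c.1 g) * ρbar.ρ g) = 0) :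
    lcResH1 (ad0Rep ρbar) (levelCompat_globalLevel (primeLocalToGlobal v) T)
      (LC.H1π (globalLevel T) (ad0Rep ρbar) c) ∈ unipH1 ρbar v := by
  rw [lcResH1_mk]
  exact H1π_mem_unipH1 v _ (fun g hg => hc _ hg)

/-- Ramification at `v`, transported to the standard place. -/
theorem exists_ne_one_of_not_isUnramifiedAt (v : Nat.Primes) (hram : ¬ ρbar.IsUnramifiedAt v) :
    ∃ σ ∈ (primeLocalPlace v).inertiaSubgroupIn ℚ, ρbar.ρ σ ≠ 1 := by
  letI : Fact (v : ℕ).Prime := ⟨v.2⟩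
  haveI := Fermat.Agent.S54.FrobExists.isGalois_rat_algebraicClosure
  have hP : (primeLocalPlace v).LiesOverPrime (v : ℕ) := padicPlace_liesOverPrime (v : ℕ)
  unfold ResidualGaloisRep.IsUnramifiedAt at hram
  push Not at hram
  obtain ⟨A, hA, τ, hτ, hτ1⟩ := hram
  obtain ⟨g, rfl⟩ := Fermat.Agent.S13.exists_smul_valuationSubring_eq (primeLocalPlace v) A v.2 hP hA
  rw [Fermat.Agent.S13.conj_mem_inertiaSubgroupIn_smul] at hτ
  refine ⟨_, hτ, fun h1 => hτ1 ?_⟩
  rw [map_mul, map_mul] at h1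
  have h2 : ρbar.ρ τ = ρbar.ρ g * (ρbar.ρ g⁻¹ * ρbar.ρ τ * ρbar.ρ g) * ρbar.ρ g⁻¹ := by
    have e1 : ρbar.ρ g * ρbar.ρ g⁻¹ = 1 := rho_mul_rho_inv ρbar g
    calc ρbar.ρ τ = (ρbar.ρ g * ρbar.ρ g⁻¹) * ρbar.ρ τ * (ρbar.ρ g * ρbar.ρ g⁻¹) := by
          rw [e1, one_mul, mul_one]
      _ = _ := by noncomm_ring
  rw [h2, h1, mul_one, rho_mul_rho_inv]

/-- **(LOC-S)** at `v ∈ Smin ∖ {p}`: `dim unipH1 ≤ h⁰(G_v, ad⁰ ρbar)`. -/
theorem finrank_unipH1_le (v : Nat.Primes) (h2 : (2 : k) ≠ 0) (hvk : ((v : ℕ) : k) ≠ 0)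
    (hunip : ∀ σ ∈ (primeLocalPlace v).inertiaSubgroupIn ℚ, (ρbar.ρ σ - 1) * (ρbar.ρ σ - 1) = 0)
    (hram : ¬ ρbar.IsUnramifiedAt v) :
    Module.Finite k (unipH1 ρbar v) ∧
      finrank k (unipH1 ρbar v) ≤ finrank k (locAd0P ρbar v).ρ.invariants := by
  letI : Fact (v : ℕ).Prime := ⟨v.2⟩
  exact finrank_unip_le (ρbar := ρbar) (q := (v : ℕ)) (frobGenAt_padicPlace (v : ℕ)) h2 hvk hunip
    (exists_ne_one_of_not_isUnramifiedAt v hram)

/-- **(LOC-q)** at a Taylor–Wiles prime `v` (the literal clauses of `Contracts.IsAux`):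
`dim H¹(G_v, ad⁰ ρbar) ≤ h⁰(G_v, ad⁰ ρbar) + 1`. -/
theorem finrank_H1_prime_le (v : Nat.Primes) {p : ℕ} (hpk : (p : k) = 0) (h2 : (2 : k) ≠ 0)
    (hpq : p ∣ (v : ℕ) - 1) (hur : ρbar.IsUnramifiedAt v)
    (hfrob : ∀ P : ValuationSubring Qb, P.LiesOverPrime v → ∀ φ : GQ, P.IsFrobeniusAt φ v →
      ∃ α β : k, α ≠ β ∧ LinearMap.charpoly (ρbar.ρ φ) = (X - C α) * (X - C β)) :
    Module.Finite k (LC.H1 (levelOf (primeLocalToGlobal v)) (locAd0P ρbar v)) ∧
      finrank k (LC.H1 (levelOf (primeLocalToGlobal v)) (locAd0P ρbar v)) ≤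
        finrank k (locAd0P ρbar v).ρ.invariants + 1 := by
  letI : Fact (v : ℕ).Prime := ⟨v.2⟩
  exact finrank_H1_le_of_isAux (ρbar := ρbar) (q := (v : ℕ)) hpk h2 (frobGenAt_padicPlace (v : ℕ))
    hpq hur hfrob

end Fermat.Agent.TW.Loc
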