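import Mathlib

/-!
# PROGRAM G (S56), blocks (LOC-S)/(LOC-q): cocycles on a group with a tame presentation modulo a level

`G` a group (a local Galois group), `N` a subgroup (a level), `ρ : Representation k G M`.

`TameGen G N q` : a *tame presentation of `G` modulo `N`*: an inertia subgroup `I`, a set `W ⊆ I` of
wild elements (each has a `q`-power in `N`), a Frobenius `φ` and a tame generator `τ ∈ I` with
`G = ⟨φ⟩ I N`, `I ⊆ ⟨τ⟩ W N` and `φ τ φ⁻¹ ∈ τ ^ q W N`.

For a cocycle `z : G → M` (`z (g h) = z g + g z h`) which is right-invariant under `N`, where the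
elements of `W` act trivially on `M` and `q` is invertible in `k`:

* `z` vanishes on `N` and on `W` (`apply_eq_zero_of_mem`, `apply_wild_eq_zero`);
* `z` is determined by `z τ` and `z φ` (`eq_zero_of_apply_eq_zero`);
* if `z τ = 0` then `z φ` is fixed by `φ τ φ⁻¹` (`conj_apply_phi_of_apply_tau_eq_zero`);
* `finrank_le` : a space `Z` of such cocycles with `z τ ∈ Y` for all `z ∈ Z` has
  `dim Z ≤ dim Y + dim M^{φ τ φ⁻¹}`.
-/

set_option autoImplicit false

namespace Fermat.Agent.TW.Loc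

/-- A tame presentation of `G` modulo the subgroup `N`. -/
structure TameGen (G : Type*) [Group G] (N : Subgroup G) (q : ℕ) where
  /-- inertia -/
  I : Subgroup G
  /-- wild elements -/
  W : Set G
  /-- a Frobenius lift -/
  φ : G
  /-- a generator of tame inertia modulo `N` -/
  τ : G
  τ_mem : τ ∈ I
  gen : ∀ g : G, ∃ (n : ℕ) (i u : G), i ∈ I ∧ u ∈ N ∧ g = φ ^ n * i * u
  genI : ∀ i ∈ I, ∃ (m : ℕ) (w u : G), w ∈ W ∧ u ∈ N ∧ i = τ ^ m * w * u
  wild : ∀ w ∈ W, ∃ a : ℕ, w ^ (q ^ a) ∈ N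
  rel : ∃ w u : G, w ∈ W ∧ u ∈ N ∧ φ * τ * φ⁻¹ = τ ^ q * w * u

section Cocycle

variable {k G M : Type*} [Field k] [Group G] [AddCommGroup M] [Module k M]
  (ρ : Representation k G M) {N : Subgroup G} {z : G → M}

/-- `z` is a `1`-cocycle. -/
def IsCoc (z : G → M) : Prop := ∀ g h : G, z (g * h) = z g + ρ g (z h)

/-- `z` is right-invariant under `N`. -/
def IsRightInv (N : Subgroup G) (z : G → M) : Prop := ∀ g : G, ∀ u ∈ N, z (g * u) = z g

variable {ρ}

theorem IsCoc.apply_one (hz : IsCoc ρ z) : z 1 = 0 := by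
  have h := hz 1 1
  rw [mul_one, map_one, Module.End.one_apply] at h
  exact left_eq_add.mp h |>.symm ▸ rfl

theorem IsCoc.apply_eq_zero_of_mem (hz : IsCoc ρ z) (hN : IsRightInv N z) {u : G} (hu : u ∈ N) :
    z u = 0 := by
  have h := hN 1 u hu
  rw [one_mul, hz.apply_one] at h
  exact h

theorem IsCoc.apply_mul_of_mem (_hz : IsCoc ρ z) (hN : IsRightInv N z) (g : G) {u : G}
    (hu : u ∈ N) : z (g * u) = z g := hN g u hu

/-- On an element acting trivially, a cocycle is additive in powers. -/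
theorem IsCoc.apply_pow_of_trivial (hz : IsCoc ρ z) {w : G} (hw : ρ w = 1) (n : ℕ) :
    z (w ^ n) = (n : k) • z w := by
  induction n with
  | zero => rw [pow_zero, hz.apply_one, Nat.cast_zero, zero_smul]
  | succ n ih =>
    rw [pow_succ, hz, ih, map_pow, hw, one_pow, Module.End.one_apply, Nat.cast_succ, add_smul,
      one_smul]

/-- A cocycle vanishes at an element acting trivially which has a `q`-power in `N`
(`q` invertible in `k`). -/
theorem IsCoc.apply_wild_eq_zero (hz : IsCoc ρ z) (hN : IsRightInv N z) {q : ℕ}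
    (hq : (q : k) ≠ 0) {w : G} (hw : ρ w = 1) {a : ℕ} (hwa : w ^ (q ^ a) ∈ N) : z w = 0 := by
  have h1 := hz.apply_pow_of_trivial hw (q ^ a)
  rw [hz.apply_eq_zero_of_mem hN hwa] at h1
  have h2 : ((q ^ a : ℕ) : k) ≠ 0 := by
    rw [Nat.cast_pow]
    exact pow_ne_zero _ hq
  exact (smul_eq_zero.mp h1.symm).resolve_left h2

theorem IsCoc.apply_pow_eq_zero (hz : IsCoc ρ z) {g : G} (hg : z g = 0) (n : ℕ) :
    z (g ^ n) = 0 := by
  induction n with
  | zero => rw [pow_zero, hz.apply_one]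
  | succ n ih => rw [pow_succ, hz, ih, hg, map_zero, add_zero]

theorem IsCoc.apply_inv (hz : IsCoc ρ z) (g : G) : z g⁻¹ = - ρ g⁻¹ (z g) := by
  have h := hz g⁻¹ g
  rw [inv_mul_cancel, hz.apply_one] at h
  exact eq_neg_of_add_eq_zero_left h.symm

variable {q : ℕ} (T : TameGen G N q)

/-- A cocycle vanishes on the wild elements. -/
theorem IsCoc.apply_W (hz : IsCoc ρ z) (hN : IsRightInv N z) (hq : (q : k) ≠ 0)
    (hW : ∀ w ∈ T.W, ρ w = 1) {w : G} (hw : w ∈ T.W) : z w = 0 := by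
  obtain ⟨a, ha⟩ := T.wild w hw
  exact hz.apply_wild_eq_zero hN hq (hW w hw) ha

/-- On inertia a cocycle is computed from the powers of `τ`. -/
theorem IsCoc.apply_inertia (hz : IsCoc ρ z) (hN : IsRightInv N z) (hq : (q : k) ≠ 0)
    (hW : ∀ w ∈ T.W, ρ w = 1) {i : G} (hi : i ∈ T.I) : ∃ m : ℕ, z i = z (T.τ ^ m) := by
  obtain ⟨m, w, u, hw, hu, rfl⟩ := T.genI i hi
  refine ⟨m, ?_⟩
  rw [hN _ u hu, hz, hz.apply_W T hN hq hW hw, map_zero, add_zero]

/-- **A cocycle is determined by its values at `τ` and `φ`.** -/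
theorem IsCoc.eq_zero_of_apply_eq_zero (hz : IsCoc ρ z) (hN : IsRightInv N z) (hq : (q : k) ≠ 0)
    (hW : ∀ w ∈ T.W, ρ w = 1) (hτ : z T.τ = 0) (hφ : z T.φ = 0) (g : G) : z g = 0 := by
  obtain ⟨n, i, u, hi, hu, rfl⟩ := T.gen g
  obtain ⟨m, hm⟩ := hz.apply_inertia T hN hq hW hi
  rw [hN _ u hu, hz, hz.apply_pow_eq_zero hφ, hm, hz.apply_pow_eq_zero hτ, map_zero, add_zero]

/-- The value of a cocycle at `φ τ φ⁻¹` is its value at `τ ^ q`. -/
theorem IsCoc.apply_conj (hz : IsCoc ρ z) (hN : IsRightInv N z) (hq : (q : k) ≠ 0)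
    (hW : ∀ w ∈ T.W, ρ w = 1) : z (T.φ * T.τ * T.φ⁻¹) = z (T.τ ^ q) := by
  obtain ⟨w, u, hw, hu, h⟩ := T.rel
  rw [h, hN _ u hu, hz, hz.apply_W T hN hq hW hw, map_zero, add_zero]

/-- If `z τ = 0` then `z φ` is fixed by `φ τ φ⁻¹`. -/
theorem IsCoc.conj_apply_phi_of_apply_tau_eq_zero (hz : IsCoc ρ z) (hN : IsRightInv N z)
    (hq : (q : k) ≠ 0) (hW : ∀ w ∈ T.W, ρ w = 1) (hτ : z T.τ = 0) :
    ρ (T.φ * T.τ * T.φ⁻¹) (z T.φ) = z T.φ := by
  have h1 := hz.apply_conj T hN hq hW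
  rw [hz.apply_pow_eq_zero hτ, hz, hz, hτ, map_zero, add_zero, hz.apply_inv] at h1
  have h2 : ρ (T.φ * T.τ) (-(ρ T.φ⁻¹) (z T.φ)) = - ρ (T.φ * T.τ * T.φ⁻¹) (z T.φ) := by
    rw [map_neg, map_mul (f := ρ) (T.φ * T.τ) T.φ⁻¹, Module.End.mul_apply]
  rw [h2, add_neg_eq_zero] at h1
  exact h1.symm

end Cocycle

section Bound

variable {k G M : Type*} [Field k] [Group G] [AddCommGroup M] [Module k M]
  [FiniteDimensional k M] (ρ : Representation k G M) {N : Subgroup G} {q : ℕ} (T : TameGen G N q)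

/-- A space of `N`-invariant cocycles is finite-dimensional. -/
theorem finite_of_tame (hq : (q : k) ≠ 0) (hW : ∀ w ∈ T.W, ρ w = 1) (Z : Submodule k (G → M))
    (hZc : ∀ z ∈ Z, IsCoc ρ z) (hZN : ∀ z ∈ Z, IsRightInv N z) : Module.Finite k Z := by
  let ev : Z →ₗ[k] M × M :=
    { toFun := fun z => (z.1 T.τ, z.1 T.φ)
      map_add' := fun _ _ => rfl
      map_smul' := fun _ _ => rfl }
  have hinj : Function.Injective ev := by
    rw [← LinearMap.ker_eq_bot, eq_bot_iff]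
    intro z hzk
    have h1 : z.1 T.τ = 0 := congrArg Prod.fst (LinearMap.mem_ker.mp hzk)
    have h2 : z.1 T.φ = 0 := congrArg Prod.snd (LinearMap.mem_ker.mp hzk)
    rw [Submodule.mem_bot]
    apply Subtype.ext
    funext g
    exact (hZc z z.2).eq_zero_of_apply_eq_zero T (hZN z z.2) hq hW h1 h2 g
  exact FiniteDimensional.of_injective ev hinj

/-- **Dimension bound.** A space `Z` of `N`-invariant cocycles whose values at `τ` lie in `Y` has
dimension at most `dim Y + dim M^{φ τ φ⁻¹}`. -/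
theorem finrank_le (hq : (q : k) ≠ 0) (hW : ∀ w ∈ T.W, ρ w = 1) (Z : Submodule k (G → M))
    (hZc : ∀ z ∈ Z, IsCoc ρ z) (hZN : ∀ z ∈ Z, IsRightInv N z) (Y : Submodule k M)
    (hY : ∀ z ∈ Z, z T.τ ∈ Y) :
    Module.finrank k Z ≤ Module.finrank k Y +
      Module.finrank k (LinearMap.ker (ρ (T.φ * T.τ * T.φ⁻¹) - 1)) := by
  classical
  -- the evaluation map `z ↦ (z τ, z φ)` is injective on `Z`
  let ev : Z →ₗ[k] M × M :=
    { toFun := fun z => (z.1 T.τ, z.1 T.φ)
      map_add' := fun _ _ => rfl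
      map_smul' := fun _ _ => rfl }
  have hinj : Function.Injective ev := by
    rw [← LinearMap.ker_eq_bot, eq_bot_iff]
    intro z hzk
    have h1 : z.1 T.τ = 0 := congrArg Prod.fst (LinearMap.mem_ker.mp hzk)
    have h2 : z.1 T.φ = 0 := congrArg Prod.snd (LinearMap.mem_ker.mp hzk)
    rw [Submodule.mem_bot]
    apply Subtype.ext
    funext g
    exact (hZc z z.2).eq_zero_of_apply_eq_zero T (hZN z z.2) hq hW h1 h2 g
  have : FiniteDimensional k Z := FiniteDimensional.of_injective ev hinj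
  -- `z ↦ z τ` into `Y`
  obtain ⟨evτ, hevτ⟩ : ∃ e : Z →ₗ[k] Y, ∀ z : Z, ((e z : Y) : M) = z.1 T.τ :=
    ⟨{ toFun := fun z => ⟨z.1 T.τ, hY z z.2⟩
       map_add' := fun _ _ => rfl
       map_smul' := fun _ _ => rfl }, fun _ => rfl⟩
  -- its kernel embeds into the fixed points of `φ τ φ⁻¹` via `z ↦ z φ`
  obtain ⟨evφ, hevφ⟩ : ∃ e : LinearMap.ker evτ →ₗ[k] M, ∀ z : LinearMap.ker evτ,
      e z = z.1.1 T.φ :=
    ⟨{ toFun := fun z => z.1.1 T.φ
       map_add' := fun _ _ => rfl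
       map_smul' := fun _ _ => rfl }, fun _ => rfl⟩
  have hkτ : ∀ z : LinearMap.ker evτ, z.1.1 T.τ = 0 := by
    intro z
    rw [← hevτ z.1, LinearMap.mem_ker.mp z.2]
    rfl
  have hinjφ : Function.Injective evφ := by
    have hiff := injective_iff_map_eq_zero evφ
    refine hiff.mpr fun z hzk => ?_
    have h2 : z.1.1 T.φ = 0 := by rw [← hevφ z]; exact hzk
    apply Subtype.ext
    apply Subtype.ext
    funext g
    exact (hZc z.1 z.1.2).eq_zero_of_apply_eq_zero T (hZN z.1 z.1.2) hq hW (hkτ z) h2 g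
  have hrange : LinearMap.range evφ ≤ LinearMap.ker (ρ (T.φ * T.τ * T.φ⁻¹) - 1) := by
    rintro _ ⟨z, rfl⟩
    rw [LinearMap.mem_ker, LinearMap.sub_apply, Module.End.one_apply, sub_eq_zero, hevφ z]
    exact (hZc z.1 z.1.2).conj_apply_phi_of_apply_tau_eq_zero T (hZN z.1 z.1.2) hq hW (hkτ z)
  have h1 := LinearMap.finrank_range_add_finrank_ker evτ
  have h2 : Module.finrank k (LinearMap.range evτ) ≤ Module.finrank k Y :=
    Submodule.finrank_le _
  have h3 : Module.finrank k (LinearMap.ker evτ) ≤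
      Module.finrank k (LinearMap.ker (ρ (T.φ * T.τ * T.φ⁻¹) - 1)) := by
    rw [← LinearMap.finrank_range_of_inj hinjφ]
    exact Submodule.finrank_mono hrange
  omega

end Bound

end Fermat.Agent.TW.Loc
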