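import Fermat.Agent.TW.Loc.TameGenLocal
import Fermat.Agent.TW.Loc.TameUnr
import Fermat.Agent.TW.Loc.DirectedBound
import Fermat.Agent.TW.Loc.FrobGen
import Fermat.Agent.S55.LCBridgeLocal

/-!
# PROGRAM G (S56): the local `H¹` of an unramified module at `q` (generic coefficients)

`X : Rep k G_ℚ` finite-dimensional with open kernel, unramified at the prime `q`, `q ≠ 0` in `k`.
LC cohomology of `Gq = Gal(ℚ̄_q/ℚ_q)` for `levelOf r`, `r = localGaloisToGlobal q`, coefficients
`Rep.res r X`.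

* `finrank_H1_unr_le` : `dim H¹(G_q, X) ≤ dim X^{G_q} + dim ker (φ - q | X)` for every Frobenius
  element `φ` at `padicPlace q`.
-/

set_option autoImplicit false
set_option linter.unusedSectionVars false
set_option linter.style.haveILetI false

open CategoryTheory groupCohomology Module

namespace Fermat.Agent.TW.Loc

open Fermat.Agent.CFT Fermat.Agent.S55

local notation "Qb" => AlgebraicClosure ℚ
local notation "GQ" => (AlgebraicClosure ℚ ≃ₐ[ℚ] AlgebraicClosure ℚ)

variable {k : Type} [Field k] (X : Rep k GQ) (q : ℕ) [hq : Fact q.Prime]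

local notation "Gq" => (PadicAlgCl q ≃ₐ[ℚ_[q]] PadicAlgCl q)

/-- `X` restricted to the local Galois group at `q`. -/
noncomputable abbrev locRep : Rep k Gq := Rep.res (localGaloisToGlobal q) X

section Level

variable {X q}

/-- The cocycle identity in the form used by `TameCocycle`. -/
theorem isCoc_of_mem_Z₁' (z : ↥(LC.Z₁ (levelOf (localGaloisToGlobal q)) (locRep X q))) :
    IsCoc (locRep X q).ρ z.1 := by
  intro g h
  rw [(mem_cocycles₁_iff _).mp z.2.1 g h, add_comm]

end Level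

section CommonLevel

local instance instIsAlgClosureQbUnrG : IsAlgClosure ℚ Qb := AlgebraicClosure.instIsAlgClosure ℚ
local instance instIsGaloisQbUnrG : IsGalois ℚ Qb :=
  Fermat.Agent.S54.FrobExists.isGalois_rat_algebraicClosure

variable {X q}

/-- Finitely many LC cocycles are right-invariant under the level of a common finite Galois `F`
which can moreover be chosen so large that `X` is trivial on it. -/
theorem exists_common_level' (hopen : ∃ F : IntermediateField ℚ Qb, FiniteDimensional ℚ F ∧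
      ∀ s ∈ F.fixingSubgroup, X.ρ s = 1)
    (s : Finset ↥(LC.Z₁ (levelOf (localGaloisToGlobal q)) (locRep X q))) :
    ∃ F : IntermediateField ℚ Qb, IsGalois ℚ F ∧ FiniteDimensional ℚ F ∧
      (∀ z ∈ s, IsRightInv (localLevel q F) z.1) ∧
      ∀ u ∈ localLevel q F, X.ρ (localGaloisToGlobal q u) = 1 := by
  classical
  let Lv := levelOf (localGaloisToGlobal q)
  have hlev : ∀ z : ↥(LC.Z₁ (levelOf (localGaloisToGlobal q)) (locRep X q)),
      ∃ N, Lv.IsLevel N ∧ ∀ g, ∀ u ∈ N, z.1 (g * u) = z.1 g := fun z => z.2.2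
  choose Nz hNz hNzinv using hlev
  obtain ⟨N₁, hN₁, hN₁le⟩ := Lv.exists_level_le_of_finite s Nz (fun z _ => hNz z)
  obtain ⟨L₀, hL₀fd, hL₀⟩ := hopen
  haveI := hL₀fd
  obtain ⟨E₀, hL₀E₀, hE₀gal, hE₀fd⟩ := exists_isGalois_ge L₀
  have hN₀ : Lv.IsLevel (E₀.fixingSubgroup.comap (localGaloisToGlobal q)) :=
    ⟨_, ⟨E₀, hE₀gal, hE₀fd, rfl⟩, rfl⟩
  obtain ⟨N₂, hN₂, hN₂le⟩ := Lv.directed hN₁ hN₀
  obtain ⟨N, ⟨F, hFgal, hFfd, rfl⟩, rfl⟩ := hN₂
  refine ⟨F, hFgal, hFfd, ?_, ?_⟩
  · intro z hz g u hu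
    exact hNzinv z g u (hN₁le z hz ((hN₂le.trans inf_le_left) hu))
  · intro u hu
    have hu' : localGaloisToGlobal q u ∈ E₀.fixingSubgroup := (hN₂le.trans inf_le_right) hu
    exact hL₀ _ (IntermediateField.fixingSubgroup_antitone hL₀E₀ hu')

end CommonLevel

section FixedLevel

/-- The LC cocycles right-invariant under `N`. -/
noncomputable def rightInvZ₁' (N : Subgroup Gq) :
    Submodule k ↥(LC.Z₁ (levelOf (localGaloisToGlobal q)) (locRep X q)) where
  carrier := {z | IsRightInv N z.1}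
  add_mem' := by
    intro a b ha hb g u hu
    show a.1 (g * u) + b.1 (g * u) = a.1 g + b.1 g
    rw [ha g u hu, hb g u hu]
  zero_mem' := fun _ _ _ => rfl
  smul_mem' := by
    intro c a ha g u hu
    show c • a.1 (g * u) = c • a.1 g
    rw [ha g u hu]

variable {X q}

/-- All LC cocycles of a fixed level: dimension `≤ dim ker (φ - q) + dim X`. -/
theorem finrank_rightInvZ₁'_le [Module.Finite k X] (hqk : (q : k) ≠ 0)
    (hur : ∀ σ ∈ (padicPlace q).inertiaSubgroupIn ℚ, X.ρ σ = 1) {φ : GQ}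
    (hφ : (padicPlace q).IsFrobeniusAt φ q)
    (F : IntermediateField ℚ Qb) (hFgal : IsGalois ℚ F) (hFfd : FiniteDimensional ℚ F)
    (hρF : ∀ u ∈ localLevel q F, X.ρ (localGaloisToGlobal q u) = 1) :
    Module.Finite k (rightInvZ₁' X q (localLevel q F)) ∧
      finrank k (rightInvZ₁' X q (localLevel q F)) ≤
        finrank k (LinearMap.ker (X.ρ φ - (q : k) • (1 : Module.End k X))) + finrank k X := by
  classical
  haveI := Fermat.Agent.BR2.TameRho.isAlgebraic_Qbar
  haveI : Normal ℚ F := hFgal.to_normal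
  haveI := hFfd
  obtain ⟨T, hTI, hTφ, hTW⟩ := exists_tameGen q (frobGenAt_padicPlace q) F
  have hI : ∀ i ∈ T.I, (locRep X q).ρ i = 1 := by
    intro i hi
    rw [hTI] at hi
    exact hur _ hi
  have hW : ∀ w ∈ T.W, (locRep X q).ρ w = 1 := fun w hw => hur _ (hTW w hw)
  have hNρ : ∀ u ∈ localLevel q F, (locRep X q).ρ u = 1 := fun u hu => hρF u hu
  -- the two Frobenius elements act in the same way
  have hφφ : (locRep X q).ρ T.φ = X.ρ φ := by
    have h1 := Fermat.Agent.Cheb.mul_inv_mem_inertiaSubgroupIn hTφ hφ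
    have h2 := hur _ h1
    rw [map_mul] at h2
    have h3 : X.ρ φ⁻¹ * X.ρ φ = 1 := by rw [← map_mul, inv_mul_cancel, map_one]
    calc (locRep X q).ρ T.φ = X.ρ (localGaloisToGlobal q T.φ) := rfl
      _ = X.ρ (localGaloisToGlobal q T.φ) * (X.ρ φ⁻¹ * X.ρ φ) := by rw [h3, mul_one]
      _ = (X.ρ (localGaloisToGlobal q T.φ) * X.ρ φ⁻¹) * X.ρ φ := by rw [mul_assoc]
      _ = X.ρ φ := by rw [h2, one_mul]
  set Z'' : Submodule k (Gq → (locRep X q).V) :=
    (rightInvZ₁' X q (localLevel q F)).map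
      (LC.Z₁ (levelOf (localGaloisToGlobal q)) (locRep X q)).subtype with hZ''
  have hZc : ∀ z ∈ Z'', IsCoc (locRep X q).ρ z := by
    rintro _ ⟨z, -, rfl⟩
    exact isCoc_of_mem_Z₁' z
  have hZN : ∀ z ∈ Z'', IsRightInv (localLevel q F) z := by
    rintro _ ⟨z, hz, rfl⟩
    exact hz
  haveI : Module.Finite k (locRep X q).V := inferInstanceAs (Module.Finite k X)
  have hτ : (locRep X q).ρ T.τ = 1 := hI _ T.τ_mem
  let Y : Submodule k (locRep X q).V :=
    LinearMap.ker (X.ρ φ - (q : k) • (1 : Module.End k X))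
  have hY : ∀ z ∈ Z'', z T.τ ∈ Y := by
    intro z hz
    have h1 := (hZc z hz).phi_apply_tau T (hZN z hz) hqk hW hτ
    rw [hφφ] at h1
    show z T.τ ∈ LinearMap.ker (X.ρ φ - (q : k) • (1 : Module.End k X))
    rw [LinearMap.mem_ker, LinearMap.sub_apply, LinearMap.smul_apply, Module.End.one_apply, h1,
      sub_self]
  have hfin : Module.Finite k Z'' := finite_of_tame (locRep X q).ρ T hqk hW Z'' hZc hZN
  have hle := finrank_le (locRep X q).ρ T hqk hW Z'' hZc hZN Y hY
  have h2 : finrank k (LinearMap.ker ((locRep X q).ρ (T.φ * T.τ * T.φ⁻¹) - 1)) ≤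
      finrank k (locRep X q).V := Submodule.finrank_le _
  have hinj : Function.Injective
      (LC.Z₁ (levelOf (localGaloisToGlobal q)) (locRep X q)).subtype :=
    Subtype.val_injective
  have e : (rightInvZ₁' X q (localLevel q F)) ≃ₗ[k] Z'' :=
    Submodule.equivMapOfInjective _ hinj _
  refine ⟨Module.Finite.equiv e.symm, ?_⟩
  rw [e.finrank_eq]
  exact hle.trans (Nat.add_le_add_left h2 _)

end FixedLevel

section Final

variable {X q}

/-- `X` restricted to `Gq` is smooth. -/
theorem isSmooth_locRep (hopen : ∃ F : IntermediateField ℚ Qb, FiniteDimensional ℚ F ∧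
      ∀ s ∈ F.fixingSubgroup, X.ρ s = 1) :
    IsSmooth (levelOf (localGaloisToGlobal q)) (locRep X q) := by
  obtain ⟨F, hF, h⟩ := hopen
  refine isSmooth_levelOf_res _ X (fun m => ⟨F, hF, fun s hs => ?_⟩)
  rw [h s hs, Module.End.one_apply]

/-- The coboundary map with values in the LC cocycles. -/
noncomputable def cobZ₁' (hsm : IsSmooth (levelOf (localGaloisToGlobal q)) (locRep X q)) :
    (locRep X q).V →ₗ[k] ↥(LC.Z₁ (levelOf (localGaloisToGlobal q)) (locRep X q)) :=
  LinearMap.codRestrict _ (d₀₁ (locRep X q)).hom (fun m => LC.B₁_le_Z₁ hsm ⟨m, rfl⟩)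

theorem cobZ₁'_apply (hsm : IsSmooth (levelOf (localGaloisToGlobal q)) (locRep X q))
    (m : (locRep X q).V) (g : Gq) : (cobZ₁' hsm m).1 g = (locRep X q).ρ g m - m := rfl

theorem ker_cobZ₁' (hsm : IsSmooth (levelOf (localGaloisToGlobal q)) (locRep X q)) :
    LinearMap.ker (cobZ₁' hsm) = (locRep X q).ρ.invariants := by
  rw [cobZ₁', LinearMap.ker_codRestrict, d₀₁_ker_eq_invariants]

theorem H1π_cobZ₁' (hsm : IsSmooth (levelOf (localGaloisToGlobal q)) (locRep X q))
    (m : (locRep X q).V) :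
    LC.H1π (levelOf (localGaloisToGlobal q)) (locRep X q) (cobZ₁' hsm m) = 0 := by
  rw [LC.H1π_eq_zero_iff]
  exact ⟨m, rfl⟩

theorem cobZ₁'_mem_rightInvZ₁' (hsm : IsSmooth (levelOf (localGaloisToGlobal q)) (locRep X q))
    {N : Subgroup Gq} (hN : ∀ u ∈ N, (locRep X q).ρ u = 1) (m : (locRep X q).V) :
    cobZ₁' hsm m ∈ rightInvZ₁' X q N := by
  intro g u hu
  rw [cobZ₁'_apply, cobZ₁'_apply, map_mul, Module.End.mul_apply, hN u hu, Module.End.one_apply]

/-- **The local `H¹` of an unramified module.** -/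
theorem finrank_H1_unr_le [Module.Finite k X] (hqk : (q : k) ≠ 0)
    (hopen : ∃ F : IntermediateField ℚ Qb, FiniteDimensional ℚ F ∧
      ∀ s ∈ F.fixingSubgroup, X.ρ s = 1)
    (hur : ∀ σ ∈ (padicPlace q).inertiaSubgroupIn ℚ, X.ρ σ = 1) {φ : GQ}
    (hφ : (padicPlace q).IsFrobeniusAt φ q) :
    Module.Finite k (LC.H1 (levelOf (localGaloisToGlobal q)) (locRep X q)) ∧
      finrank k (LC.H1 (levelOf (localGaloisToGlobal q)) (locRep X q)) ≤
        finrank k (locRep X q).ρ.invariants +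
          finrank k (LinearMap.ker (X.ρ φ - (q : k) • (1 : Module.End k X))) := by
  classical
  have hsm := isSmooth_locRep (q := q) hopen
  haveI : Module.Finite k (locRep X q).V := inferInstanceAs (Module.Finite k X)
  set n := finrank k (locRep X q).V with hn
  set h0 := finrank k (locRep X q).ρ.invariants with hh0
  set c := finrank k (LinearMap.ker (X.ρ φ - (q : k) • (1 : Module.End k X))) with hc
  have hh0le : h0 ≤ n := Submodule.finrank_le _
  have hrange : finrank k (LinearMap.range (cobZ₁' hsm)) = n - h0 := by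
    have := LinearMap.finrank_range_add_finrank_ker (cobZ₁' hsm)
    rw [ker_cobZ₁'] at this
    omega
  have key : ∀ s : Finset ↥(LC.Z₁ (levelOf (localGaloisToGlobal q)) (locRep X q)),
      (∀ z ∈ s, z ∈ (⊤ : Submodule k
        ↥(LC.Z₁ (levelOf (localGaloisToGlobal q)) (locRep X q)))) → ∃ Z' : Submodule k
        ↥(LC.Z₁ (levelOf (localGaloisToGlobal q)) (locRep X q)), FiniteDimensional k Z' ∧
      (∀ z ∈ s, z ∈ Z') ∧ finrank k Z' ≤ c + n ∧ n - h0 ≤ finrank k
        (LinearMap.ker (LC.H1π (levelOf (localGaloisToGlobal q)) (locRep X q)) ⊓ Z' :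
          Submodule k ↥(LC.Z₁ (levelOf (localGaloisToGlobal q)) (locRep X q))) := by
    intro s _
    obtain ⟨F, hFgal, hFfd, hsF, hρF⟩ := exists_common_level' (X := X) (q := q) hopen s
    obtain ⟨hfin, hle⟩ := finrank_rightInvZ₁'_le hqk hur hφ F hFgal hFfd hρF
    haveI := hfin
    refine ⟨rightInvZ₁' X q (localLevel q F), hfin, fun z hz => hsF z hz, hle, ?_⟩
    rw [← hrange]
    apply Submodule.finrank_mono
    rintro _ ⟨m, rfl⟩
    exact ⟨LinearMap.mem_ker.mpr (H1π_cobZ₁' hsm m),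
      cobZ₁'_mem_rightInvZ₁' hsm (fun u hu => hρF u hu) m⟩
  have htop : (⊤ : Submodule k ↥(LC.Z₁ (levelOf (localGaloisToGlobal q)) (locRep X q))).map
      (LC.H1π (levelOf (localGaloisToGlobal q)) (locRep X q)) = ⊤ := by
    rw [Submodule.map_top, LinearMap.range_eq_top]
    exact Submodule.mkQ_surjective _
  have hfin := finite_map_of_forall_finset _ _ (c + n) (n - h0) key
  have hle := finrank_map_le_of_forall_finset _ _ (c + n) (n - h0) key
  rw [htop] at hfin hle
  rw [finrank_top] at hle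
  refine ⟨?_, by omega⟩
  exact Module.Finite.equiv (Submodule.topEquiv (R := k)
    (M := LC.H1 (levelOf (localGaloisToGlobal q)) (locRep X q)))

end Final

end Fermat.Agent.TW.Loc
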